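import Mathlib

/-!
# Graeffe's transform and integral square roots

For a monic integral polynomial with roots `z`, the product over `i` of
`(1 - z i ^ 2 x) (1 - z i ^ 4 x)` is the square of an integral power series.
-/

set_option autoImplicit false

noncomputable section

namespace FA.SchinzelZassenhaus

open Polynomial Finset

/-- Graeffe's transform: the monic polynomial whose roots are the squares of the roots. -/
def graeffe (Q : ℤ[X]) : ℤ[X] := C ((-1) ^ Q.natDegree) * contract 2 (Q * Q.comp (-X))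

variable {ι : Type*} [Fintype ι]

theorem natDegree_prod_X_sub (z : ι → ℂ) : (∏ i, (X - C (z i))).natDegree = Fintype.card ι := by
  rw [natDegree_prod _ _ fun i _ => X_sub_C_ne_zero _]
  simp

theorem natDegree_of_map_eq_prod {Q : ℤ[X]} {z : ι → ℂ}
    (h : Q.map (Int.castRingHom ℂ) = ∏ i, (X - C (z i))) : Q.natDegree = Fintype.card ι := by
  rw [← natDegree_prod_X_sub z, ← h, natDegree_map_eq_of_injective Int.cast_injective]

theorem monic_of_map_eq_prod {Q : ℤ[X]} {z : ι → ℂ}
    (h : Q.map (Int.castRingHom ℂ) = ∏ i, (X - C (z i))) : Q.Monic :=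
  monic_of_injective (f := Int.castRingHom ℂ) Int.cast_injective
    (h ▸ monic_prod_of_monic _ _ fun _ _ => monic_X_sub_C _)

/-- The roots of the transform. -/
theorem map_graeffe {Q : ℤ[X]} {z : ι → ℂ}
    (h : Q.map (Int.castRingHom ℂ) = ∏ i, (X - C (z i))) :
    (graeffe Q).map (Int.castRingHom ℂ) = ∏ i, (X - C (z i ^ 2)) := by
  have hfac : ∀ i, (X - C (z i)) * (X - C (z i)).comp (-X) =
      C (-1 : ℂ) * expand ℂ 2 (X - C (z i ^ 2)) := fun i => by
    rw [map_sub (expand ℂ 2), expand_X, expand_C, sub_comp, X_comp, C_comp, C_neg, C_1, C_pow]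
    ring
  rw [graeffe, natDegree_of_map_eq_prod h, Polynomial.map_mul, map_C, map_contract two_ne_zero,
    Polynomial.map_mul, map_comp, Polynomial.map_neg, map_X, h, Polynomial.prod_comp,
    ← prod_mul_distrib, prod_congr rfl fun i (_ : i ∈ univ) => hfac i, prod_mul_distrib,
    prod_const, card_univ, ← map_prod (expand ℂ 2), ← C_pow]
  rw [contract_mul_expand two_ne_zero, contract_C, ← mul_assoc, ← C_mul]
  simp [← mul_pow]

theorem two_dvd_iff (V : ℤ[X]) : C (2 : ℤ) ∣ V ↔ V.map (Int.castRingHom (ZMod 2)) = 0 := by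
  rw [C_dvd_iff_dvd_coeff]
  refine ⟨fun h => Polynomial.ext fun i => ?_, fun h i => ?_⟩
  · rw [coeff_map, coeff_zero]
    exact (ZMod.intCast_zmod_eq_zero_iff_dvd _ 2).2 (h i)
  · have h' := congrArg (fun p => coeff p i) h
    simp only [coeff_map, coeff_zero] at h'
    exact (ZMod.intCast_zmod_eq_zero_iff_dvd _ 2).1 h'

theorem map_two_comp_neg (V : ℤ[X]) :
    (V.comp (-X)).map (Int.castRingHom (ZMod 2)) = V.map (Int.castRingHom (ZMod 2)) := by
  rw [map_comp, Polynomial.map_neg, map_X, CharTwo.neg_eq, comp_X]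

theorem two_dvd_graeffe_sub (Q : ℤ[X]) : C (2 : ℤ) ∣ graeffe Q - Q := by
  rw [two_dvd_iff, Polynomial.map_sub, sub_eq_zero, graeffe, Polynomial.map_mul, map_C,
    map_contract two_ne_zero, Polynomial.map_mul, map_two_comp_neg, ← sq, ← ZMod.expand_card,
    contract_expand _ two_ne_zero, map_pow, map_neg, map_one, CharTwo.neg_eq, one_pow, map_one,
    one_mul]

theorem four_dvd_graeffe_sub {Q Q' : ℤ[X]} (hd : Q.natDegree = Q'.natDegree)
    (h : C (2 : ℤ) ∣ Q - Q') : C (4 : ℤ) ∣ graeffe Q - graeffe Q' := by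
  obtain ⟨U, hU⟩ := h
  obtain ⟨V, hV⟩ : C (2 : ℤ) ∣ U * Q'.comp (-X) + Q' * U.comp (-X) := by
    rw [two_dvd_iff, Polynomial.map_add, Polynomial.map_mul, Polynomial.map_mul, map_two_comp_neg,
      map_two_comp_neg, mul_comm, CharTwo.add_self_eq_zero]
  have e : Q * Q.comp (-X) = Q' * Q'.comp (-X) + C 4 * (V + U * U.comp (-X)) := by
    rw [show Q = Q' + C 2 * U by rw [← hU]; ring, add_comp, mul_comp, C_comp,
      show (C 4 : ℤ[X]) = C 2 * C 2 by rw [← C_mul]; rfl]
    linear_combination (C (2 : ℤ)) * hV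
  rw [C_dvd_iff_dvd_coeff]
  intro i
  rw [graeffe, graeffe, hd, ← mul_sub, e, coeff_C_mul, coeff_sub, coeff_contract two_ne_zero,
    coeff_contract two_ne_zero, coeff_add, coeff_C_mul, add_sub_cancel_left, mul_left_comm]
  exact dvd_mul_right _ _

/-- The solution of `T + T² = W`. -/
def quadSol (w : ℕ → ℤ) : ℕ → ℤ
  | n => w n - ∑ p ∈ (antidiagonal n).attach,
      if _h : p.1.1 < n ∧ p.1.2 < n then quadSol w p.1.1 * quadSol w p.1.2 else 0
termination_by n => n
decreasing_by
  · exact _h.1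
  · exact _h.2

theorem exists_add_sq_eq (W : PowerSeries ℤ) (hW : PowerSeries.constantCoeff W = 0) :
    ∃ T : PowerSeries ℤ, T + T ^ 2 = W ∧ PowerSeries.constantCoeff T = 0 := by
  obtain ⟨w, hw⟩ : ∃ w : ℕ → ℤ, w = fun n => PowerSeries.coeff n W := ⟨_, rfl⟩
  have hdef : ∀ n, quadSol w n = w n - ∑ p ∈ antidiagonal n,
      if p.1 < n ∧ p.2 < n then quadSol w p.1 * quadSol w p.2 else 0 := fun n => by
    rw [quadSol, ← sum_attach (antidiagonal n)]
    simp only [dite_eq_ite]
  have h0 : quadSol w 0 = 0 := by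
    rw [hdef, hw]
    simpa using hW
  refine ⟨PowerSeries.mk (quadSol w), PowerSeries.ext fun n => ?_, by simp [h0]⟩
  rw [map_add, sq, PowerSeries.coeff_mul, PowerSeries.coeff_mk]
  simp only [PowerSeries.coeff_mk]
  have hsum : ∑ p ∈ antidiagonal n, quadSol w p.1 * quadSol w p.2 =
      ∑ p ∈ antidiagonal n,
        if p.1 < n ∧ p.2 < n then quadSol w p.1 * quadSol w p.2 else 0 := by
    refine sum_congr rfl fun p hp => ?_
    rw [HasAntidiagonal.mem_antidiagonal] at hp
    split_ifs with h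
    · rfl
    · rcases (show p.1 = 0 ∨ p.2 = 0 by omega) with e | e <;> simp [e, h0]
  rw [hsum, hdef n, sub_add_cancel, hw]

/-- A series congruent to another modulo four times it gives a square. -/
theorem exists_sq_eq_mul {A B U : PowerSeries ℤ} (hA : PowerSeries.constantCoeff A = 1)
    (hB : PowerSeries.constantCoeff B = 1) (h : B = A + 4 * U) :
    ∃ F : PowerSeries ℤ, PowerSeries.constantCoeff F = 1 ∧ F ^ 2 = A * B := by
  obtain ⟨u, hu⟩ : IsUnit A := PowerSeries.isUnit_iff_constantCoeff.2 (by rw [hA]; exact isUnit_one)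
  have hU : PowerSeries.constantCoeff U = 0 := by
    have h' := congrArg PowerSeries.constantCoeff h
    rw [hB, map_add, hA, map_mul, map_ofNat] at h'
    linarith
  obtain ⟨T, hT, hT0⟩ := exists_add_sq_eq (↑u⁻¹ * U) (by rw [map_mul, hU, mul_zero])
  refine ⟨A * (1 + 2 * T), by rw [map_mul, map_add, map_mul, hA, hT0]; simp, ?_⟩
  have h1 : A * ↑u⁻¹ = 1 := by rw [← hu]; exact u.mul_inv
  rw [h]
  linear_combination 4 * A ^ 2 * hT + 4 * A * U * h1

theorem reverse_X_sub (c : ℂ) : (X - C c).reverse = 1 - C c * X := by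
  have h : reflect 1 (X : ℂ[X]) = 1 := by
    ext n
    rcases n with - | n
    · simp
    · rcases n with - | n
      · simp [coeff_one]
      · simp [coeff_one]
  rw [reverse, natDegree_X_sub_C, reflect_sub, h, reflect_C, pow_one]

theorem reverse_prod_X_sub (z : ι → ℂ) :
    (∏ i, (X - C (z i))).reverse = ∏ i, (1 - C (z i) * X) := by
  classical
  induction (univ : Finset ι) using Finset.induction_on with
  | empty =>
    rw [prod_empty, prod_empty, ← C_1, reverse, natDegree_C, reflect_C, pow_zero, mul_one]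
  | insert a s ha ih =>
    rw [prod_insert ha, prod_insert ha, reverse_mul_of_domain, ih, reverse_X_sub]

theorem map_reverse_eq {Q : ℤ[X]} {z : ι → ℂ}
    (h : Q.map (Int.castRingHom ℂ) = ∏ i, (X - C (z i))) :
    Q.reverse.map (Int.castRingHom ℂ) = ∏ i, (1 - C (z i) * X) := by
  rw [← reverse_prod_X_sub, ← h, reverse, reverse,
    natDegree_map_eq_of_injective Int.cast_injective, reflect_map]

/-- **The integral square root.** -/
theorem exists_int_sqrt {P : ℤ[X]} {z : ι → ℂ}
    (h : P.map (Int.castRingHom ℂ) = ∏ i, (X - C (z i))) :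
    ∃ F : PowerSeries ℤ, PowerSeries.constantCoeff F = 1 ∧
      PowerSeries.map (Int.castRingHom ℂ) F ^ 2 =
        (((∏ i, (1 - C (z i ^ 2) * X)) * ∏ i, (1 - C (z i ^ 4) * X) : ℂ[X]) : PowerSeries ℂ) := by
  have h2 := map_graeffe h
  have h4 : (graeffe (graeffe P)).map (Int.castRingHom ℂ) = ∏ i, (X - C (z i ^ 4)) := by
    rw [map_graeffe h2]
    simp only [← pow_mul]
  have hd2 := natDegree_of_map_eq_prod h2
  have hd4 := natDegree_of_map_eq_prod h4
  obtain ⟨U, hU⟩ : C (4 : ℤ) ∣ (graeffe (graeffe P)).reverse - (graeffe P).reverse := by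
    rw [reverse, reverse, hd2, hd4, ← reflect_sub, C_dvd_iff_dvd_coeff]
    intro i
    rw [coeff_reflect]
    exact (C_dvd_iff_dvd_coeff _ _).1 (four_dvd_graeffe_sub
      (hd2.trans (natDegree_of_map_eq_prod h).symm) (two_dvd_graeffe_sub P)) _
  have hconst : ∀ Q : ℤ[X], Q.Monic →
      PowerSeries.constantCoeff (Q.reverse : PowerSeries ℤ) = 1 := fun Q hQ => by
    rw [Polynomial.constantCoeff_coe, coeff_zero_reverse, hQ.leadingCoeff]
  obtain ⟨F, hF0, hF⟩ := exists_sq_eq_mul (hconst _ (monic_of_map_eq_prod h2))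
    (hconst _ (monic_of_map_eq_prod h4)) (U := (U : PowerSeries ℤ)) (by
      rw [show (4 : PowerSeries ℤ) = ((C (4 : ℤ) : ℤ[X]) : PowerSeries ℤ) by
        rw [Polynomial.coe_C]; rfl, ← Polynomial.coe_mul, ← Polynomial.coe_add, ← hU,
        add_sub_cancel])
  refine ⟨F, hF0, ?_⟩
  rw [← map_pow, hF, map_mul, ← polynomial_map_coe, ← polynomial_map_coe, map_reverse_eq h2,
    map_reverse_eq h4, Polynomial.coe_mul]

end FA.SchinzelZassenhaus
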