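import Fermat.Agent.SchinzelZassenhaus.Fejer

/-!
# Vandermonde products in narrow sectors

`k` points of the closed unit disc, each of which lies either well inside the disc or in one of at
most `M / 32` of the `2 M` equal sectors, have a Vandermonde determinant of modulus at most
`exp (3 k (1 + log k) - k² / (512 M))`.
-/

set_option autoImplicit false

noncomputable section

namespace FA.SchinzelZassenhaus

open Complex Finset Matrix
open scoped Real ComplexConjugate

/-- The middle direction of the `j`-th of `2 M` sectors. -/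
def dir (φ₀ : ℝ) (M : ℕ) (j : ℕ) : ℂ := cexp ((φ₀ + π * j / M : ℝ) * I)

theorem norm_dir (φ₀ : ℝ) (M j : ℕ) : ‖dir φ₀ M j‖ = 1 := norm_exp_ofReal_mul_I _

/-- The disc of radius `1 - 1 / (16 M)` and the chosen sectors of the unit disc. -/
def Thick (φ₀ : ℝ) (M : ℕ) (B : Finset ℕ) (z : ℂ) : Prop :=
  ‖z‖ ≤ 1 ∧ (‖z‖ ≤ 1 - 1 / (16 * (M : ℝ)) ∨
    ∃ j ∈ B, ∃ ψ : ℝ, |ψ| ≤ π / (2 * M) ∧ z = ‖z‖ * cexp (ψ * I) * dir φ₀ M j)

/-- Orthogonality of the powers of the directions. -/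
theorem sum_normSq_powerSum (φ₀ : ℝ) {M : ℕ} (hM : 1 ≤ M) (B : Finset ℕ)
    (hB : ∀ j ∈ B, j < 2 * M) :
    ∑ l ∈ range (2 * M), ‖∑ j ∈ B, conj (dir φ₀ M j) ^ (l + 1)‖ ^ 2 = 2 * M * B.card := by
  have hM0 : (M : ℂ) ≠ 0 := Nat.cast_ne_zero.2 (by omega)
  have horth : ∀ a ∈ B, ∀ b ∈ B,
      ∑ l ∈ range (2 * M), (dir φ₀ M a * conj (dir φ₀ M b)) ^ (l + 1) =
        if a = b then ((2 * M : ℕ) : ℂ) else 0 := by
    intro a ha b hb
    split_ifs with h
    · subst h
      simp [Complex.mul_conj', norm_dir]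
    · obtain ⟨ω, hω⟩ : ∃ ω, ω = dir φ₀ M a * conj (dir φ₀ M b) := ⟨_, rfl⟩
      have hωe : ω = cexp (((π * ((a : ℝ) - b) / M : ℝ)) * I) := by
        rw [hω, dir, dir, ← Complex.exp_conj, map_mul, Complex.conj_ofReal, Complex.conj_I,
          ← Complex.exp_add]
        congr 1
        push_cast
        ring
      have hω1 : ω ≠ 1 := by
        rw [hωe, Ne, Complex.exp_eq_one_iff]
        rintro ⟨m, hm⟩
        have h2 := congrArg Complex.im hm
        simp at h2
        have hMr : (M : ℝ) ≠ 0 := Nat.cast_ne_zero.2 (by omega)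
        have h3 : ((a : ℤ) - b : ℤ) = 2 * M * m := by
          have h4 : ((a : ℝ) - b) = 2 * M * m := by
            field_simp at h2
            nlinarith [Real.pi_pos, h2]
          exact_mod_cast h4
        have ha' := hB a ha
        have hb' := hB b hb
        rcases lt_trichotomy m 0 with h0 | h0 | h0
        · nlinarith [mul_le_mul_of_nonneg_left (show m ≤ -1 by omega)
            (show (0 : ℤ) ≤ 2 * M by omega)]
        · subst h0
          omega
        · nlinarith [mul_le_mul_of_nonneg_left (show 1 ≤ m by omega)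
            (show (0 : ℤ) ≤ 2 * M by omega)]
      have hω2 : ω ^ (2 * M) = 1 := by
        rw [hωe, ← Complex.exp_nat_mul, Complex.exp_eq_one_iff]
        refine ⟨(a : ℤ) - b, ?_⟩
        push_cast
        field_simp
      rw [← hω]
      simp only [pow_succ, ← sum_mul]
      rw [geom_sum_eq hω1, hω2, sub_self, zero_div, zero_mul]
  apply Complex.ofReal_injective
  push_cast
  have hsq : ∀ l : ℕ, ((‖∑ j ∈ B, conj (dir φ₀ M j) ^ (l + 1)‖ : ℝ) : ℂ) ^ 2 =
      ∑ a ∈ B, ∑ b ∈ B, (dir φ₀ M a * conj (dir φ₀ M b)) ^ (l + 1) := fun l => by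
    rw [← Complex.conj_mul', map_sum, sum_mul_sum]
    simp only [map_pow, Complex.conj_conj, mul_pow]
  simp only [hsq]
  rw [sum_comm, sum_congr rfl fun a ha => by
    rw [sum_comm, sum_congr rfl fun b hb => horth a ha b hb, sum_ite_eq, if_pos ha]]
  rw [sum_const, nsmul_eq_mul]
  push_cast
  ring

/-- The product of the distances of all ordered pairs of distinct indices. -/
def offProd {k : ℕ} (z : Fin k → ℂ) : ℝ :=
  ∏ p ∈ (univ : Finset (Fin k)).offDiag, ‖z p.1 - z p.2‖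

theorem offProd_eq {k : ℕ} (z : Fin k → ℂ) : offProd z = ‖(vandermonde z).det‖ ^ 2 := by
  classical
  rw [offProd, ← prod_filter_mul_prod_filter_not _ (fun p : Fin k × Fin k => p.1 < p.2), sq,
    det_vandermonde, norm_prod]
  simp only [norm_prod]
  congr 1
  · rw [prod_finset_product _ univ fun i => Ioi i]
    · exact prod_congr rfl fun i _ => prod_congr rfl fun j _ => norm_sub_rev _ _
    · intro p
      simp only [mem_filter, mem_offDiag, mem_univ, true_and, mem_Ioi]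
      exact ⟨fun h => h.2, fun h => ⟨h.ne, h⟩⟩
  · rw [prod_finset_product_right _ univ fun i => Ioi i]
    intro p
    simp only [mem_filter, mem_offDiag, mem_univ, true_and, mem_Ioi, not_lt]
    exact ⟨fun h => lt_of_le_of_ne h.2 (Ne.symm h.1), fun h => ⟨h.ne', h.le⟩⟩

theorem norm_det_vandermonde_le {k : ℕ} {z : Fin k → ℂ} (hz : ∀ i, ‖z i‖ ≤ 1) :
    ‖(vandermonde z).det‖ ≤ k.factorial := by
  have h := Matrix.det_le (A := vandermonde z) (abv := NormedField.toAbsoluteValue ℂ) (x := 1)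
    fun i j => by
      show ‖vandermonde z i j‖ ≤ 1
      rw [vandermonde_apply, norm_pow]
      exact pow_le_one₀ (norm_nonneg _) (hz i)
  simp only [Fintype.card_fin, one_pow, nsmul_eq_mul, mul_one] at h
  exact h

/-- Many points well inside. -/
theorem offProd_le_of_inner {k : ℕ} {z : Fin k → ℂ} (hz : ∀ i, ‖z i‖ ≤ 1) {ρ : ℝ} (hρ : 0 < ρ)
    (hρ1 : ρ ≤ 1) (s : Finset (Fin k)) (hs : ∀ i ∈ s, ‖z i‖ ≤ ρ) :
    offProd z ≤ ρ ^ s.offDiag.card * (k.factorial : ℝ) ^ 2 := by
  classical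
  obtain ⟨Zt, hZt⟩ : ∃ Zt : ℂ → Fin k → ℂ,
      Zt = fun t i => if i ∈ s then t * (z i / ρ) else z i := ⟨_, rfl⟩
  obtain ⟨W, hW⟩ : ∃ W : ℂ → ℂ, W = fun t => ∏ p ∈ (univ : Finset (Fin k)).offDiag,
      if p ∈ s.offDiag then z p.1 / ρ - z p.2 / ρ else Zt t p.1 - Zt t p.2 := ⟨_, rfl⟩
  have hsub : s.offDiag ⊆ (univ : Finset (Fin k)).offDiag := offDiag_mono (subset_univ s)
  have hrel : ∀ t : ℂ, offProd (Zt t) = ‖t‖ ^ s.offDiag.card * ‖W t‖ := by
    intro t
    rw [offProd, hW, norm_prod, ← prod_sdiff hsub, ← prod_sdiff hsub (f := fun p =>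
      ‖if p ∈ s.offDiag then z p.1 / ρ - z p.2 / ρ else Zt t p.1 - Zt t p.2‖), ← prod_const,
      mul_left_comm, ← prod_mul_distrib]
    congr 1
    · exact prod_congr rfl fun p hp => by rw [if_neg (mem_sdiff.1 hp).2]
    · refine prod_congr rfl fun p hp => ?_
      obtain ⟨h1, h2, -⟩ := mem_offDiag.1 hp
      rw [if_pos hp, hZt]
      simp only [h1, h2, if_true]
      rw [← norm_mul, mul_sub]
  have hcoord : ∀ i, Differentiable ℂ fun t => Zt t i := fun i => by
    rw [hZt]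
    by_cases hi : i ∈ s <;> simp only [hi, if_true, if_false] <;> fun_prop
  have hdiff : Differentiable ℂ W := by
    rw [hW]
    refine Differentiable.fun_finsetProd fun p _ => ?_
    split_ifs
    · exact differentiable_const _
    · exact (hcoord _).sub (hcoord _)
  have hbound : ‖W ρ‖ ≤ (k.factorial : ℝ) ^ 2 := by
    refine Complex.norm_le_of_forall_mem_frontier_norm_le (U := Metric.ball (0 : ℂ) 1)
      Metric.isBounded_ball hdiff.diffContOnCl (fun t ht => ?_) ?_
    · rw [frontier_ball (0 : ℂ) one_ne_zero, mem_sphere_zero_iff_norm] at ht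
      have h := hrel t
      rw [ht, one_pow, one_mul] at h
      rw [← h, offProd_eq]
      refine pow_le_pow_left₀ (norm_nonneg _) (norm_det_vandermonde_le fun i => ?_) 2
      rw [hZt]
      simp only
      split_ifs with hi
      · rw [norm_mul, ht, one_mul, norm_div, Complex.norm_real, Real.norm_of_nonneg hρ.le,
          div_le_one hρ]
        exact hs i hi
      · exact hz i
    · rw [closure_ball (0 : ℂ) one_ne_zero, mem_closedBall_zero_iff, Complex.norm_real,
        Real.norm_of_nonneg hρ.le]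
      exact hρ1
  have hz' : Zt ρ = z := funext fun i => by
    rw [hZt]
    simp only
    split_ifs
    · rw [mul_div_cancel₀ _ (ofReal_ne_zero.2 hρ.ne')]
    · rfl
  rw [← hz', hrel, Complex.norm_real, Real.norm_of_nonneg hρ.le]
  exact mul_le_mul_of_nonneg_left hbound (by positivity)

theorem norm_sub_le_norm_one_sub_conj_mul {a b : ℂ} (ha : ‖a‖ ≤ 1) (hb : ‖b‖ ≤ 1) :
    ‖a - b‖ ≤ ‖1 - conj a * b‖ := by
  have ha2 : normSq a ≤ 1 := by rw [normSq_eq_norm_sq]; exact pow_le_one₀ (norm_nonneg _) ha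
  have hb2 : normSq b ≤ 1 := by rw [normSq_eq_norm_sq]; exact pow_le_one₀ (norm_nonneg _) hb
  rw [← sq_le_sq₀ (norm_nonneg _) (norm_nonneg _), ← normSq_eq_norm_sq, ← normSq_eq_norm_sq]
  simp only [normSq_apply, sub_re, sub_im, one_re, one_im, mul_re, mul_im, conj_re, conj_im] at *
  nlinarith [mul_nonneg (sub_nonneg.2 ha2) (sub_nonneg.2 hb2)]

/-- The angular part of the energy. -/
theorem offProd_le_powerSum {k : ℕ} (z : Fin k → ℂ) (hz : ∀ i, ‖z i‖ ≤ 1) {r : ℝ} (hr : 0 < r)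
    (hr1 : r < 1) (M : ℕ) :
    r ^ (univ : Finset (Fin k)).offDiag.card * offProd z * (1 - r ^ 2) ^ k ≤
      Real.exp (-∑ l ∈ range M, r ^ (2 * (l + 1)) * ‖∑ i, z i ^ (l + 1)‖ ^ 2 / (l + 1)) := by
  classical
  obtain ⟨x, hx⟩ : ∃ x : Fin k × Fin k → ℂ,
      x = fun p => conj ((r : ℂ) * z p.1) * ((r : ℂ) * z p.2) := ⟨_, rfl⟩
  have hrz : ∀ i, ‖(r : ℂ) * z i‖ ≤ r := fun i => by
    rw [norm_mul, Complex.norm_real, Real.norm_of_nonneg hr.le]
    exact mul_le_of_le_one_right hr.le (hz i)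
  have hx1 : ∀ p, ‖x p‖ < 1 := fun p => by
    rw [hx, norm_mul, RCLike.norm_conj]
    calc _ ≤ r * r := mul_le_mul (hrz _) (hrz _) (norm_nonneg _) hr.le
      _ < 1 := mul_lt_one_of_nonneg_of_lt_one_left hr.le hr1 hr1.le
  have hne : ∀ p, 0 < ‖1 - x p‖ := fun p => norm_pos_iff.2 fun h => by
    have := hx1 p
    rw [← sub_eq_zero.1 h, norm_one] at this
    exact lt_irrefl _ this
  obtain ⟨E, hE⟩ : ∃ E : ℝ, E = -∑ p : Fin k × Fin k, Real.log ‖1 - x p‖ := ⟨_, rfl⟩
  have hsum : HasSum (fun l : ℕ => r ^ (2 * l) * ‖∑ i, z i ^ l‖ ^ 2 / l) E := by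
    have h1 : HasSum (fun l : ℕ => ∑ p : Fin k × Fin k, x p ^ l / l)
        (∑ p : Fin k × Fin k, -Complex.log (1 - x p)) :=
      hasSum_sum fun p _ => Complex.hasSum_taylorSeries_neg_log (hx1 p)
    have h2 := Complex.hasSum_re h1
    rw [re_sum] at h2
    simp only [neg_re, log_re] at h2
    rw [sum_neg_distrib, ← hE] at h2
    refine h2.congr_fun fun l => ?_
    have e : ∑ p : Fin k × Fin k, x p ^ l / l =
        ((r ^ (2 * l) * ‖∑ i, z i ^ l‖ ^ 2 / l : ℝ) : ℂ) := by
      rw [hx, ← sum_div]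
      push_cast
      congr 1
      rw [← Complex.conj_mul', Fintype.sum_prod_type, map_sum, sum_mul_sum, mul_sum]
      refine sum_congr rfl fun i _ => ?_
      rw [mul_sum]
      refine sum_congr rfl fun j _ => ?_
      simp only [map_mul, map_pow, Complex.conj_ofReal]
      ring
    rw [e, ofReal_re]
  have hpart : ∑ l ∈ range M, r ^ (2 * (l + 1)) * ‖∑ i, z i ^ (l + 1)‖ ^ 2 / (l + 1) ≤ E := by
    refine le_trans (le_of_eq ?_) (sum_le_hasSum ((range M).map ⟨Nat.succ, Nat.succ_injective⟩)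
      (fun l _ => by positivity) hsum)
    rw [sum_map]
    refine sum_congr rfl fun l _ => ?_
    simp only [Function.Embedding.coeFn_mk, Nat.cast_succ]
  refine le_trans ?_ (Real.exp_le_exp.2 (neg_le_neg hpart))
  rw [hE, neg_neg, Real.exp_sum]
  simp only [Real.exp_log (hne _)]
  rw [show (univ : Finset (Fin k × Fin k)) = (univ : Finset (Fin k)).diag ∪ univ.offDiag by
      rw [diag_union_offDiag, univ_product_univ],
    prod_union (disjoint_diag_offDiag _), prod_diag, mul_comm]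
  refine mul_le_mul ?_ ?_ ?_ (prod_nonneg fun i _ => norm_nonneg _)
  · calc (1 - r ^ 2) ^ k = ∏ _i : Fin k, (1 - r ^ 2) := by simp
      _ ≤ _ := prod_le_prod (fun i _ => by nlinarith) fun i _ => by
        refine le_trans ?_ (norm_sub_norm_le _ _)
        rw [norm_one, hx, norm_mul, RCLike.norm_conj]
        nlinarith [hrz i, norm_nonneg ((r : ℂ) * z i)]
  · rw [offProd, ← prod_const, ← prod_mul_distrib]
    refine prod_le_prod (fun p _ => by positivity) fun p _ => ?_
    rw [hx]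
    refine le_trans (le_of_eq ?_) (norm_sub_le_norm_one_sub_conj_mul
      ((hrz p.1).trans hr1.le) ((hrz p.2).trans hr1.le))
    rw [← mul_sub, norm_mul, Complex.norm_real, Real.norm_of_nonneg hr.le]
  · rw [offProd]
    positivity

/-- Few points well inside: some power sum of order at most `M` is large. -/
theorem powerSum_energy_ge {φ₀ : ℝ} {M : ℕ} (hM : 1 ≤ M) {B : Finset ℕ}
    (hBM : ∀ j ∈ B, j < 2 * M) (hB : 32 * B.card ≤ M) {k : ℕ} {z : Fin k → ℂ}
    (hz : ∀ i, Thick φ₀ M B (z i))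
    (hout : 3 * k ≤ 4 * (univ.filter fun i => ¬‖z i‖ ≤ 1 - 1 / (16 * (M : ℝ))).card) :
    (k : ℝ) ^ 2 / (64 * M) ≤ ∑ l ∈ range M, ‖∑ i, z i ^ (l + 1)‖ ^ 2 / (l + 1) := by
  classical
  have hM0 : (0 : ℝ) < M := by exact_mod_cast hM
  obtain ⟨w, hw⟩ : ∃ w : ℕ → ℝ, w = fun l => (((M - 1 - l : ℕ) : ℝ) / M) := ⟨_, rfl⟩
  obtain ⟨b, hb⟩ : ∃ b : ℕ → ℂ, b = fun j => conj (dir φ₀ M j) := ⟨_, rfl⟩
  have hbnorm : ∀ j, ‖b j‖ = 1 := fun j => by rw [hb, RCLike.norm_conj, norm_dir]
  have hbb : ∀ j, dir φ₀ M j * b j = 1 := fun j => by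
    rw [hb, Complex.mul_conj', norm_dir]
    simp
  -- the test function at each point
  have hpt : ∀ i, (if ¬‖z i‖ ≤ 1 - 1 / (16 * (M : ℝ)) then (M : ℝ) / 8 else 0) - B.card ≤
      2 * (∑ j ∈ B, fejPoly M (z i * b j)).re := by
    intro i
    rw [re_sum, mul_sum]
    have hle : ∀ j, ‖z i * b j‖ ≤ 1 := fun j => by rw [norm_mul, hbnorm, mul_one]; exact (hz i).1
    have hall : ∑ j ∈ B, 2 * (fejPoly M (z i * b j)).re =
        (∑ j ∈ B, (1 + 2 * (fejPoly M (z i * b j)).re)) - B.card := by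
      rw [sum_add_distrib, sum_const, nsmul_eq_mul, mul_one]
      ring
    rw [hall]
    refine sub_le_sub_right ?_ _
    split_ifs with hin
    · exact sum_nonneg fun j _ => kernel_nonneg hM (hle j)
    · obtain ⟨j, hj, ψ, hψ, hzj⟩ := (hz i).2.resolve_left hin
      refine le_trans ?_ (single_le_sum (fun j _ => kernel_nonneg hM (hle j)) hj)
      rw [hzj, mul_assoc, hbb, mul_one]
      exact kernel_large hM hψ (not_le.1 hin).le (hz i).1
  obtain ⟨S, hS⟩ : ∃ S : ℕ → ℂ, S = fun l => ∑ j ∈ B, b j ^ (l + 1) := ⟨_, rfl⟩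
  obtain ⟨p, hp⟩ : ∃ p : ℕ → ℂ, p = fun l => ∑ i, z i ^ (l + 1) := ⟨_, rfl⟩
  have hswap : ∑ i, ∑ j ∈ B, fejPoly M (z i * b j) = ∑ l ∈ range M, (w l : ℂ) * (p l * S l) := by
    simp only [fejPoly]
    rw [sum_congr rfl fun i _ => sum_comm, sum_comm]
    refine sum_congr rfl fun l _ => ?_
    rw [hp, hS, sum_mul_sum, mul_sum]
    refine sum_congr rfl fun i _ => ?_
    rw [mul_sum]
    refine sum_congr rfl fun j _ => ?_
    rw [hw, mul_pow]
    push_cast
    ring
  have hlow : (k : ℝ) * M / 16 ≤ 2 * ∑ l ∈ range M, ‖p l‖ * ‖S l‖ := by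
    have h := sum_le_sum fun i (_ : i ∈ (univ : Finset (Fin k))) => hpt i
    rw [sum_sub_distrib, ← sum_filter, sum_const, sum_const, card_univ, Fintype.card_fin,
      nsmul_eq_mul, nsmul_eq_mul, ← mul_sum, ← re_sum, hswap] at h
    have hup : (∑ l ∈ range M, (w l : ℂ) * (p l * S l)).re ≤ ∑ l ∈ range M, ‖p l‖ * ‖S l‖ := by
      refine (re_le_norm _).trans ((norm_sum_le _ _).trans (sum_le_sum fun l _ => ?_))
      rw [norm_mul, norm_mul, Complex.norm_real,
        Real.norm_of_nonneg (hw ▸ (fejPoly_weight_mem M l).1)]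
      exact mul_le_of_le_one_left (by positivity) (hw ▸ (fejPoly_weight_mem M l).2)
    have h1 : (3 : ℝ) * k ≤
        4 * ((univ.filter fun i => ¬‖z i‖ ≤ 1 - 1 / (16 * (M : ℝ))).card : ℝ) := by
      exact_mod_cast hout
    have h2 : (32 : ℝ) * B.card ≤ M := by exact_mod_cast hB
    have h3 := mul_le_mul_of_nonneg_left h2 (Nat.cast_nonneg k (α := ℝ))
    have h4 := mul_le_mul_of_nonneg_left h1 hM0.le
    linarith
  have hS2 : ∑ l ∈ range M, ((l : ℝ) + 1) * ‖S l‖ ^ 2 ≤ (M : ℝ) * (2 * M * B.card) := by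
    rw [← sum_normSq_powerSum φ₀ hM B hBM, mul_sum]
    refine le_trans (sum_le_sum fun l hl => ?_) (sum_le_sum_of_subset_of_nonneg
      (range_mono (by omega : M ≤ 2 * M)) fun l _ _ => by positivity)
    rw [hS, hb]
    exact mul_le_mul_of_nonneg_right (by exact_mod_cast mem_range.1 hl) (by positivity)
  have hCS := sum_mul_sq_le_sq_mul_sq (range M) (fun l => ‖p l‖ / √((l : ℝ) + 1))
    (fun l => √((l : ℝ) + 1) * ‖S l‖)
  rw [sum_congr rfl fun l (_ : l ∈ range M) => show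
      ‖p l‖ / √((l : ℝ) + 1) * (√((l : ℝ) + 1) * ‖S l‖) = ‖p l‖ * ‖S l‖ by
        field_simp,
    sum_congr rfl fun l (_ : l ∈ range M) => show
      (‖p l‖ / √((l : ℝ) + 1)) ^ 2 = ‖p l‖ ^ 2 / ((l : ℝ) + 1) by
        rw [div_pow, Real.sq_sqrt (by positivity)],
    sum_congr rfl fun l (_ : l ∈ range M) => show
      (√((l : ℝ) + 1) * ‖S l‖) ^ 2 = ((l : ℝ) + 1) * ‖S l‖ ^ 2 by
        rw [mul_pow, Real.sq_sqrt (by positivity)]] at hCS
  obtain ⟨En, hEn⟩ : ∃ En, En = ∑ l ∈ range M, ‖p l‖ ^ 2 / ((l : ℝ) + 1) := ⟨_, rfl⟩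
  rw [← hEn] at hCS
  have hEn0 : 0 ≤ En := hEn ▸ sum_nonneg fun l _ => by positivity
  have h2 : (32 : ℝ) * B.card ≤ M := by exact_mod_cast hB
  have hchain : ((k : ℝ) * M / 32) ^ 2 ≤ En * ((M : ℝ) * (2 * M * (M / 32))) := by
    refine le_trans (pow_le_pow_left₀ (by positivity) (by linarith) 2) (hCS.trans ?_)
    refine mul_le_mul_of_nonneg_left (hS2.trans ?_) hEn0
    gcongr
    linarith
  refine le_trans ?_ (le_of_eq (show En = _ by rw [hEn, hp]))
  rw [div_le_iff₀ (by positivity)]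
  have h5 : (k : ℝ) ^ 2 * M ^ 2 ≤ En * (64 * M) * M ^ 2 := by nlinarith
  exact le_of_mul_le_mul_right h5 (by positivity)

/-- **The capacity bound.** -/
theorem norm_det_vandermonde_thick_le {φ₀ : ℝ} {M : ℕ} (hM : 1 ≤ M) {B : Finset ℕ}
    (hBM : ∀ j ∈ B, j < 2 * M) (hB : 32 * B.card ≤ M) {k : ℕ} (hk : 8 * M ≤ k) {z : Fin k → ℂ}
    (hz : ∀ i, Thick φ₀ M B (z i)) :
    ‖(vandermonde z).det‖ ≤
      Real.exp (3 * k * (1 + Real.log k) - (k : ℝ) ^ 2 / (512 * M)) := by
  classical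
  have hM0 : (0 : ℝ) < M := by exact_mod_cast hM
  have hk8 : (8 : ℝ) * M ≤ k := by exact_mod_cast hk
  have hM1 : (1 : ℝ) ≤ M := by exact_mod_cast hM
  have hk0 : (0 : ℝ) < k := by linarith
  have hlk : 0 ≤ Real.log k := Real.log_nonneg (by linarith)
  rw [← sq_le_sq₀ (norm_nonneg _) (Real.exp_pos _).le, ← offProd_eq, ← Real.exp_nat_mul]
  push_cast
  obtain ⟨I', hI'⟩ : ∃ s, s = univ.filter fun i => ‖z i‖ ≤ 1 - 1 / (16 * (M : ℝ)) := ⟨_, rfl⟩
  rcases le_or_gt k (4 * I'.card) with hmany | hfew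
  · -- many inner points
    have hρ : (0 : ℝ) < 1 - 1 / (16 * (M : ℝ)) := by
      rw [sub_pos, div_lt_one (by positivity)]
      linarith
    refine (offProd_le_of_inner (fun i => (hz i).1) hρ (by
      have : 0 ≤ 1 / (16 * (M : ℝ)) := by positivity
      linarith) I' fun i hi => by
      rw [hI'] at hi
      exact (mem_filter.1 hi).2).trans ?_
    rw [offDiag_card]
    have h1 : (1 - 1 / (16 * (M : ℝ))) ^ (I'.card * I'.card - I'.card) ≤
        Real.exp (-(((I'.card : ℝ) * I'.card - I'.card) / (16 * M))) := by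
      refine (pow_le_pow_left₀ hρ.le (by linarith [Real.add_one_le_exp (-(1 / (16 * (M : ℝ))))] :
        1 - 1 / (16 * (M : ℝ)) ≤ Real.exp (-(1 / (16 * (M : ℝ))))) _).trans (le_of_eq ?_)
      rw [← Real.exp_nat_mul, Nat.cast_sub (Nat.le_mul_self _), Nat.cast_mul]
      congr 1
      ring
    have h2 : (k.factorial : ℝ) ^ 2 ≤ Real.exp (2 * k * Real.log k) := by
      rw [show (2 : ℝ) * k * Real.log k = ((k * 2 : ℕ) : ℝ) * Real.log k by push_cast; ring,
        Real.exp_nat_mul, Real.exp_log hk0, pow_mul]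
      exact pow_le_pow_left₀ (by positivity) (by exact_mod_cast Nat.factorial_le_pow k) 2
    refine (mul_le_mul h1 h2 (by positivity) (Real.exp_pos _).le).trans ?_
    rw [← Real.exp_add, Real.exp_le_exp]
    have hc : (k : ℝ) ≤ 4 * I'.card := by exact_mod_cast hmany
    have hck : (I'.card : ℝ) ≤ k := by
      exact_mod_cast (card_le_univ I').trans_eq (Fintype.card_fin k)
    have key : (k : ℝ) ^ 2 / (256 * M) - k / (16 * M) ≤
        ((I'.card : ℝ) * I'.card - I'.card) / (16 * M) := by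
      rw [show (k : ℝ) ^ 2 / (256 * M) - k / (16 * M) = (k ^ 2 / 16 - k) / (16 * M) by
        field_simp; ring]
      gcongr
      nlinarith
    have hsm : (k : ℝ) / (16 * M) ≤ k := div_le_self hk0.le (by linarith)
    have e : 2 * (3 * (k : ℝ) * (1 + Real.log k) - k ^ 2 / (512 * M)) =
        6 * k + 6 * (k * Real.log k) - k ^ 2 / (256 * M) := by field_simp; ring
    rw [e]
    nlinarith [mul_nonneg hk0.le hlk]
  · -- few inner points
    have hout : 3 * k ≤ 4 * (univ.filter fun i => ¬‖z i‖ ≤ 1 - 1 / (16 * (M : ℝ))).card := by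
      have := card_filter_add_card_filter_not (s := (univ : Finset (Fin k)))
        (fun i => ‖z i‖ ≤ 1 - 1 / (16 * (M : ℝ)))
      rw [← hI', card_univ, Fintype.card_fin] at this
      omega
    obtain ⟨r, hr⟩ : ∃ r : ℝ, r = 1 - 1 / (k : ℝ) := ⟨_, rfl⟩
    have hk1 : 1 / (k : ℝ) ≤ 1 / 8 := by
      rw [div_le_div_iff₀ hk0 (by norm_num)]
      linarith
    have hr0 : 0 < r := by linarith
    have hr1 : r < 1 := by
      have : 0 < 1 / (k : ℝ) := by positivity
      linarith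
    have hE := powerSum_energy_ge hM hBM hB hz hout
    have h := offProd_le_powerSum z (fun i => (hz i).1) hr0 hr1 M
    have hhalf : ∀ l < M, (1 : ℝ) / 2 ≤ r ^ (2 * (l + 1)) := fun l hl => by
      have hb := one_add_mul_le_pow (show (-2 : ℝ) ≤ -(1 / (k : ℝ)) by linarith) (2 * (l + 1))
      rw [show (1 : ℝ) + -(1 / (k : ℝ)) = r by rw [hr]; ring] at hb
      refine le_trans ?_ hb
      have hl' : (((2 * (l + 1) : ℕ)) : ℝ) * (1 / (k : ℝ)) ≤ 1 / 4 := by
        rw [mul_one_div, div_le_div_iff₀ hk0 (by norm_num)]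
        have : ((l : ℝ) + 1) ≤ M := by exact_mod_cast hl
        push_cast
        linarith
      linarith
    have hsum : (k : ℝ) ^ 2 / (128 * M) ≤
        ∑ l ∈ range M, r ^ (2 * (l + 1)) * ‖∑ i, z i ^ (l + 1)‖ ^ 2 / (l + 1) := by
      refine le_trans ?_ (sum_le_sum (f := fun l : ℕ =>
        (1 / 2) * (‖∑ i, z i ^ (l + 1)‖ ^ 2 / ((l : ℝ) + 1))) fun l hl => ?_)
      · rw [← mul_sum]
        refine le_trans (le_of_eq ?_) (mul_le_mul_of_nonneg_left hE (by norm_num))
        field_simp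
        ring
      · rw [mul_div_assoc (r ^ (2 * (l + 1)))]
        exact mul_le_mul_of_nonneg_right (hhalf l (mem_range.1 hl)) (by positivity)
    have hloss : Real.exp (-(2 * k) - k * Real.log k) ≤
        r ^ (univ : Finset (Fin k)).offDiag.card * (1 - r ^ 2) ^ k := by
      rw [sub_eq_add_neg, Real.exp_add]
      refine mul_le_mul ?_ ?_ (Real.exp_pos _).le (by positivity)
      · refine le_trans ?_ (pow_le_pow_of_le_one hr0.le hr1.le (n := k * k) ?_)
        · rw [← Real.exp_log (pow_pos hr0 _), Real.exp_le_exp, Real.log_pow]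
          have hl := Real.one_sub_inv_le_log_of_pos hr0
          have hinv : r⁻¹ ≤ 1 + 2 / (k : ℝ) := by
            rw [inv_le_iff_one_le_mul₀ hr0, hr]
            have h0 : 0 ≤ 1 / (k : ℝ) := by positivity
            nlinarith [mul_le_mul_of_nonneg_left hk1 h0, show 2 / (k : ℝ) = 2 * (1 / k) by ring]
          have : ((k * k : ℕ) : ℝ) * (-(2 / (k : ℝ))) ≤ ((k * k : ℕ) : ℝ) * Real.log r :=
            mul_le_mul_of_nonneg_left (by linarith) (Nat.cast_nonneg _)
          refine le_trans (le_of_eq ?_) this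
          push_cast
          field_simp
        · rw [offDiag_card, card_univ, Fintype.card_fin]
          exact Nat.sub_le _ _
      · rw [← mul_neg, Real.exp_nat_mul, Real.exp_neg, Real.exp_log hk0]
        refine pow_le_pow_left₀ (by positivity) ?_ k
        rw [hr, inv_eq_one_div]
        have h0 : 0 ≤ 1 / (k : ℝ) := by positivity
        nlinarith
    have hoff : 0 ≤ offProd z := prod_nonneg fun _ _ => norm_nonneg _
    have h' : Real.exp (-(2 * k) - k * Real.log k) * offProd z ≤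
        Real.exp (-((k : ℝ) ^ 2 / (128 * M))) :=
      (mul_le_mul_of_nonneg_right hloss hoff).trans
        (le_trans (le_of_eq (by ring)) (h.trans (Real.exp_le_exp.2 (neg_le_neg hsum))))
    rw [← le_div_iff₀' (Real.exp_pos _), ← Real.exp_sub] at h'
    refine h'.trans (Real.exp_le_exp.2 ?_)
    have e2 : 2 * (3 * (k : ℝ) * (1 + Real.log k) - k ^ 2 / (512 * M)) =
        6 * k + 6 * (k * Real.log k) - k ^ 2 / (256 * M) := by field_simp; ring
    have e3 : (k : ℝ) ^ 2 / (256 * M) ≤ k ^ 2 / (128 * M) := by gcongr; norm_num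
    rw [e2]
    nlinarith [mul_nonneg hk0.le hlk]

end FA.SchinzelZassenhaus
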