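import Fermat.Agent.SchinzelZassenhaus.Main

/-!
# The house of an algebraic integer

Descent to polynomials with distinct squares of roots, and the statement for number fields.
-/

set_option autoImplicit false

noncomputable section

namespace FA.SchinzelZassenhaus

open Polynomial Finset

/-- The distinct complex roots of a monic irreducible integral polynomial. -/
theorem exists_root_enumeration {P : ℤ[X]} (hmon : P.Monic) (hirr : Irreducible P) :
    ∃ z : Fin P.natDegree → ℂ, Function.Injective z ∧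
      P.map (Int.castRingHom ℂ) = ∏ i, (X - C (z i)) := by
  classical
  have hQ : Irreducible (P.map (Int.castRingHom ℚ)) :=
    (IsPrimitive.Int.irreducible_iff_irreducible_map_cast hmon.isPrimitive).1 hirr
  have hmap : (P.map (Int.castRingHom ℚ)).map (algebraMap ℚ ℂ) = P.map (Int.castRingHom ℂ) := by
    rw [Polynomial.map_map]
    exact congrArg (Polynomial.map · P) (RingHom.ext_int _ _)
  have hnd : (P.map (Int.castRingHom ℂ)).roots.Nodup := hmap ▸ nodup_roots hQ.separable.map
  have hsp : (P.map (Int.castRingHom ℂ)).Splits := IsAlgClosed.splits _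
  have hcard : (P.map (Int.castRingHom ℂ)).roots.toFinset.card = P.natDegree := by
    rw [Multiset.toFinset_card_of_nodup hnd, ← hsp.natDegree_eq_card_roots,
      natDegree_map_eq_of_injective Int.cast_injective]
  obtain ⟨e⟩ : Nonempty (Fin P.natDegree ≃ (P.map (Int.castRingHom ℂ)).roots.toFinset) :=
    ⟨(Finset.equivFinOfCardEq hcard).symm⟩
  refine ⟨fun i => (e i : ℂ), Subtype.val_injective.comp e.injective, ?_⟩
  rw [Equiv.prod_comp e fun w => X - C (w : ℂ),
    Finset.prod_coe_sort _ fun w => X - C w, Finset.prod,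
    Multiset.toFinset_val, hnd.dedup]
  exact hsp.eq_prod_roots_of_monic (hmon.map _)

theorem aeval_eq_zero_of_map_eq_prod {P : ℤ[X]} {ι : Type*} [Fintype ι] {z : ι → ℂ}
    (h : P.map (Int.castRingHom ℂ) = ∏ i, (X - C (z i))) (i : ι) : aeval (z i) P = 0 := by
  rw [aeval_def, algebraMap_int_eq, ← eval_map, h, eval_prod]
  exact prod_eq_zero (mem_univ i) (by simp)

theorem coeff_zero_ne_zero {P : ℤ[X]} (hmon : P.Monic) (hirr : Irreducible P) (hX : P ≠ X) :
    P.coeff 0 ≠ 0 := fun h =>
  hX (eq_of_monic_of_associated hmon monic_X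
    ((prime_X.irreducible.associated_of_dvd hirr (X_dvd_iff.2 h)).symm))

/-- A root and its negative: the polynomial is even. -/
theorem exists_expand {P : ℤ[X]} (hmon : P.Monic) (hirr : Irreducible P) (hX : P ≠ X) {z : ℂ}
    (hz : aeval z P = 0) (hzneg : aeval (-z) P = 0) : ∃ Q, expand ℤ 2 Q = P := by
  have hint : IsIntegral ℤ z := ⟨P, hmon, by rwa [← aeval_def]⟩
  have hmin : minpoly ℤ z = P := eq_of_monic_of_associated (minpoly.monic hint) hmon
    ((minpoly.irreducible hint).associated_of_dvd hirr (minpoly.isIntegrallyClosed_dvd hint hz))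
  obtain ⟨G, hG⟩ : ∃ G, G = (-1) ^ P.natDegree * P.comp (-X) := ⟨_, rfl⟩
  have hGdvd : P ∣ G := by
    refine hG ▸ dvd_mul_of_dvd_right ?_ _
    conv_lhs => rw [← hmin]
    refine minpoly.isIntegrallyClosed_dvd hint ?_
    rwa [aeval_comp, map_neg, aeval_X]
  have hGdeg : G.natDegree ≤ P.natDegree := by
    rw [hG]
    refine natDegree_mul_le.trans ?_
    rw [natDegree_comp, natDegree_neg, natDegree_X, mul_one, natDegree_pow, natDegree_neg,
      natDegree_one, mul_zero, zero_add]
  have hGP : G = P := eq_of_monic_of_dvd_of_natDegree_le hmon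
    (hG ▸ hmon.neg_one_pow_natDegree_mul_comp_neg_X) hGdvd hGdeg
  have hco : ∀ i, (-1) ^ P.natDegree * (P.coeff i * (-1) ^ i) = P.coeff i := fun i => by
    conv_rhs => rw [← hGP, hG]
    rw [show ((-1 : ℤ[X]) ^ P.natDegree) = C ((-1) ^ P.natDegree) by simp, coeff_C_mul,
      show (-X : ℤ[X]) = C (-1) * X by simp, comp_C_mul_X_coeff]
  have hn : ((-1 : ℤ) ^ P.natDegree) = 1 := by
    have h := hco 0
    rw [pow_zero, mul_one] at h
    exact (mul_eq_right₀ (coeff_zero_ne_zero hmon hirr hX)).1 h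
  refine ⟨contract 2 P, Polynomial.ext fun i => ?_⟩
  rw [coeff_expand two_pos]
  split_ifs with h2
  · rw [coeff_contract two_ne_zero, Nat.div_mul_cancel h2]
  · have h := hco i
    rw [hn, one_mul, (Nat.odd_iff.2 (by omega)).neg_one_pow] at h
    omega

/-- **The conjecture of Schinzel and Zassenhaus**, exponential form. -/
theorem exists_root_exp_le {P : ℤ[X]} (hmon : P.Monic) (hirr : Irreducible P) (hX : P ≠ X)
    (hru : ∀ z : ℂ, aeval z P = 0 → ∀ m, 0 < m → z ^ m ≠ 1) :
    ∃ z : ℂ, aeval z P = 0 ∧ Real.exp (1 / (524288 * P.natDegree)) ≤ ‖z‖ := by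
  induction hn : P.natDegree using Nat.strong_induction_on generalizing P with
  | _ n ih =>
    subst hn
    have hpos : 0 < P.natDegree := hmon.natDegree_pos.2 fun h => hirr.not_isUnit (h ▸ isUnit_one)
    obtain ⟨z, hzinj, hzP⟩ := exists_root_enumeration hmon hirr
    have hz0 : ∀ i, z i ≠ 0 := fun i h => coeff_zero_ne_zero hmon hirr hX (by
      have h' := aeval_eq_zero_of_map_eq_prod hzP i
      rwa [h, ← coeff_zero_eq_aeval_zero', algebraMap_int_eq, eq_intCast, Int.cast_eq_zero] at h')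
    by_cases hinj : Function.Injective fun i => z i ^ 2
    · by_contra hcon
      push Not at hcon
      obtain ⟨A, B, hB, hAB⟩ := exists_square_cofactor hpos hzP fun i =>
        hcon (z i) (aeval_eq_zero_of_map_eq_prod hzP i)
      obtain ⟨i, m, hm, him⟩ := exists_root_of_unity hpos hz0 hinj hB hAB
      exact hru _ (aeval_eq_zero_of_map_eq_prod hzP i) m hm him
    · obtain ⟨i, j, hij, hne⟩ := Function.not_injective_iff.1 hinj
      have hneg : z j = -z i := (sq_eq_sq_iff_eq_or_eq_neg.1 hij.symm).resolve_left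
        fun e => hne (hzinj e).symm
      obtain ⟨Q, hQ⟩ := exists_expand hmon hirr hX (aeval_eq_zero_of_map_eq_prod hzP i)
        (hneg ▸ aeval_eq_zero_of_map_eq_prod hzP j)
      have hQmon : Q.Monic := (monic_expand_iff two_pos).1 (hQ ▸ hmon)
      have hQirr : Irreducible Q := of_irreducible_expand two_ne_zero (hQ ▸ hirr)
      have hQdeg : P.natDegree = Q.natDegree * 2 := by rw [← hQ, natDegree_expand]
      have hQX : Q ≠ X := fun e => coeff_zero_ne_zero hmon hirr hX (by simp [← hQ, e])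
      have hroot : ∀ w : ℂ, aeval w Q = 0 → aeval (Complex.sqrt w) P = 0 := fun w hw => by
        rwa [← hQ, expand_aeval, sq_csqrt]
      obtain ⟨w, hw, hwn⟩ := ih _ (by omega) hQmon hQirr hQX (fun w hw m hm h1 =>
        hru _ (hroot w hw) (2 * m) (by omega) (by rw [pow_mul, sq_csqrt, h1])) rfl
      refine ⟨_, hroot w hw, ?_⟩
      rw [← pow_le_pow_iff_left₀ (Real.exp_pos _).le (norm_nonneg _) two_ne_zero, ← norm_pow,
        sq_csqrt, ← Real.exp_nat_mul]
      refine le_trans (le_of_eq ?_) hwn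
      rw [hQdeg]
      push_cast
      congr 1
      field_simp

/-- **The conjecture of Schinzel and Zassenhaus**: some conjugate is at least `1 + c / n`. -/
theorem schinzel_zassenhaus_conjecture :
    ∃ c : ℝ, 0 < c ∧ ∀ P : ℤ[X], P.Monic → Irreducible P → P ≠ X →
      (∀ z : ℂ, aeval z P = 0 → ∀ m, 0 < m → z ^ m ≠ 1) →
        ∃ z : ℂ, aeval z P = 0 ∧ 1 + c / P.natDegree ≤ ‖z‖ := by
  refine ⟨1 / 524288, by norm_num, fun P h1 h2 h3 h4 => ?_⟩
  obtain ⟨z, hz, hb⟩ := exists_root_exp_le h1 h2 h3 h4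
  refine ⟨z, hz, le_trans ?_ hb⟩
  rw [div_div]
  linarith [Real.add_one_le_exp (1 / (524288 * (P.natDegree : ℝ)))]

/-- The form for number fields. -/
theorem house_lower_bound :
    ∃ c : ℝ, 0 < c ∧ ∀ (K : Type*) [Field K] [NumberField K] (α : K), IsIntegral ℤ α → α ≠ 0 →
      (∀ m, 0 < m → α ^ m ≠ 1) →
        ∃ φ : K →+* ℂ, 1 + c / (minpoly ℚ α).natDegree ≤ ‖φ α‖ := by
  obtain ⟨c, hc, h⟩ := schinzel_zassenhaus_conjecture
  refine ⟨c, hc, fun K _ _ α hα h0 hru => ?_⟩
  have he : minpoly ℚ α = (minpoly ℤ α).map (algebraMap ℤ ℚ) :=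
    minpoly.isIntegrallyClosed_eq_field_fractions' ℚ hα
  have hset : ∀ z : ℂ, aeval z (minpoly ℤ α) = 0 → ∃ φ : K →+* ℂ, φ α = z := fun z hz => by
    have h' : z ∈ (minpoly ℚ α).rootSet ℂ := by
      rw [mem_rootSet, he, aeval_map_algebraMap]
      exact ⟨((minpoly.monic hα).map _).ne_zero, hz⟩
    rw [← NumberField.Embeddings.range_eval_eq_rootSet_minpoly K ℂ α] at h'
    exact h'
  obtain ⟨z, hz, hb⟩ := h (minpoly ℤ α) (minpoly.monic hα) (minpoly.irreducible hα)
    (fun e => h0 (by simpa [e] using minpoly.aeval ℤ α))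
    (fun z hz m hm h1 => by
      obtain ⟨φ, rfl⟩ := hset z hz
      exact hru m hm (φ.injective (by rw [map_pow, h1, map_one])))
  obtain ⟨φ, rfl⟩ := hset z hz
  refine ⟨φ, ?_⟩
  rwa [he, natDegree_map_eq_of_injective (algebraMap ℤ ℚ).injective_int]

end FA.SchinzelZassenhaus
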