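import Fermat.Agent.SchinzelZassenhaus.Capacity

/-!
# The branch of the square root and its coefficients

The Taylor coefficients of `∏ √(1 - γ i x)`, `|γ i| < 1`, are integrals over the boundary of
`2 M` sectors; the circular arcs of the sectors which do not meet a cut are pushed inwards.
-/

set_option autoImplicit false

noncomputable section

namespace FA.SchinzelZassenhaus

open Complex Finset MeasureTheory Metric
open scoped Real Nat

variable {ι : Type*} [Fintype ι]

/-- The principal branch of `∏ √(1 - γ i x)`. -/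
def branch (γ : ι → ℂ) (x : ℂ) : ℂ := ∏ i, Complex.sqrt (1 - γ i * x)

/-- The Taylor coefficients of the branch at the origin. -/
def branchCoeff (γ : ι → ℂ) (n : ℕ) : ℂ := iteratedDeriv n (branch γ) 0 / n !

/-- The lower end of the `j`-th sector. -/
def sectorEdge (M j : ℕ) : ℝ := π * j / M - π / (2 * M)

theorem sq_csqrt (a : ℂ) : Complex.sqrt a ^ 2 = a := by
  simp [Complex.sqrt]

theorem norm_csqrt_le {a : ℂ} (ha : ‖a‖ ≤ 3) : ‖Complex.sqrt a‖ ≤ 3 := by
  have h : ‖Complex.sqrt a‖ ^ 2 = ‖a‖ := by rw [← norm_pow, sq_csqrt]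
  nlinarith [norm_nonneg (Complex.sqrt a)]

theorem branch_sq (γ : ι → ℂ) (x : ℂ) : branch γ x ^ 2 = ∏ i, (1 - γ i * x) := by
  simp only [branch, ← prod_pow, sq_csqrt]

theorem differentiableAt_branch {γ : ι → ℂ} {x : ℂ}
    (hx : ∀ i, 1 - γ i * x ∈ slitPlane) : DifferentiableAt ℂ (branch γ) x := by
  refine DifferentiableAt.fun_finsetProd fun i _ => ?_
  exact DifferentiableAt.comp x (f := fun y => 1 - γ i * y) (differentiableAt_sqrt (hx i))
    (by fun_prop)

theorem one_sub_mem_slitPlane {w : ℂ} (hw : ‖w‖ < 1) : 1 - w ∈ slitPlane := by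
  refine mem_slitPlane_iff.2 (Or.inl ?_)
  rw [sub_re, one_re, sub_pos]
  exact (re_le_norm w).trans_lt hw

theorem differentiableOn_branch {γ : ι → ℂ} (hγ : ∀ i, ‖γ i‖ < 1) :
    DifferentiableOn ℂ (branch γ) (closedBall 0 1) := fun x hx =>
  (differentiableAt_branch fun i => one_sub_mem_slitPlane (by
    rw [norm_mul]
    exact mul_lt_one_of_nonneg_of_lt_one_left (norm_nonneg _) (hγ i)
      (mem_closedBall_zero_iff.1 hx))).differentiableWithinAt

theorem contDiffAt_branch {γ : ι → ℂ} (hγ : ∀ i, ‖γ i‖ < 1) (n : ℕ) :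
    ContDiffAt ℂ n (branch γ) 0 :=
  (((differentiableOn_branch hγ).mono ball_subset_closedBall).analyticOnNhd isOpen_ball 0
    (mem_ball_self one_pos)).contDiffAt

theorem iteratedDeriv_eval (p : Polynomial ℂ) (n : ℕ) :
    iteratedDeriv n (fun x => p.eval x) = fun x => (Polynomial.derivative^[n] p).eval x := by
  induction n with
  | zero => simp
  | succ n ih =>
    rw [iteratedDeriv_succ, ih, Function.iterate_succ_apply']
    funext x
    exact Polynomial.deriv _

/-- The square of the series is the polynomial. -/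
theorem sum_branchCoeff_mul {γ : ι → ℂ} (hγ : ∀ i, ‖γ i‖ < 1) (n : ℕ) :
    ∑ p ∈ antidiagonal n, branchCoeff γ p.1 * branchCoeff γ p.2 =
      (∏ i, (1 - Polynomial.C (γ i) * Polynomial.X)).coeff n := by
  have h1 : iteratedDeriv n (branch γ * branch γ) 0 =
      (n ! : ℂ) * (∏ i, (1 - Polynomial.C (γ i) * Polynomial.X)).coeff n := by
    have e : branch γ * branch γ =
        fun x => (∏ i, (1 - Polynomial.C (γ i) * Polynomial.X)).eval x := by
      funext x
      rw [Pi.mul_apply, ← sq, branch_sq, Polynomial.eval_prod]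
      simp
    rw [e, iteratedDeriv_eval]
    simp only
    rw [← Polynomial.coeff_zero_eq_eval_zero, Polynomial.coeff_iterate_derivative, zero_add,
      Nat.descFactorial_self, nsmul_eq_mul]
  rw [iteratedDeriv_mul (contDiffAt_branch hγ n) (contDiffAt_branch hγ n)] at h1
  refine mul_left_cancel₀ (Nat.cast_ne_zero.2 n.factorial_ne_zero) (Eq.trans ?_ h1)
  rw [mul_sum, Finset.Nat.sum_antidiagonal_eq_sum_range_succ_mk]
  refine sum_congr rfl fun i hi => ?_
  rw [mem_range, Nat.lt_succ_iff] at hi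
  simp only [branchCoeff]
  rw [Nat.cast_choose ℂ hi]
  field_simp [Nat.factorial_ne_zero]

theorem branchCoeff_zero (γ : ι → ℂ) : branchCoeff γ 0 = 1 := by
  simp [branchCoeff, branch]

/-- The integrand in logarithmic coordinates, for a test polynomial `D`. -/
def integrand (γ : ι → ℂ) {k : ℕ} (D : Fin k → ℂ) (m : ℕ) (ζ : ℂ) : ℂ :=
  (∑ j : Fin k, D j * cexp ζ ^ (m + j)) * branch γ (cexp (-ζ))

theorem integrand_periodic (γ : ι → ℂ) {k : ℕ} (D : Fin k → ℂ) (m : ℕ) (ζ : ℂ) :
    integrand γ D m (ζ + 2 * π * I) = integrand γ D m ζ := by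
  unfold integrand
  rw [neg_add, Complex.exp_add, Complex.exp_add, Complex.exp_neg (2 * π * I), exp_two_pi_mul_I]
  simp

theorem continuous_branch_circle {γ : ι → ℂ} (hγ : ∀ i, ‖γ i‖ < 1) :
    Continuous fun θ : ℝ => branch γ (cexp (-(θ * I))) := by
  refine (differentiableOn_branch hγ).continuousOn.comp_continuous (by fun_prop) fun θ => ?_
  rw [mem_closedBall_zero_iff, norm_exp]
  simp

/-- The coefficients as integrals over the circle. -/
theorem sum_mul_branchCoeff {γ : ι → ℂ} (hγ : ∀ i, ‖γ i‖ < 1) {k : ℕ} (D : Fin k → ℂ) (m : ℕ) :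
    (2 * π : ℂ) * ∑ j : Fin k, D j * branchCoeff γ (m + j) =
      ∫ θ in (0 : ℝ)..2 * π, integrand γ D m (θ * I) := by
  have hb : ∀ n, (2 * π : ℂ) * branchCoeff γ n =
      ∫ θ in (0 : ℝ)..2 * π, cexp (θ * I) ^ n * branch γ (cexp (-(θ * I))) := by
    intro n
    have h := (differentiableOn_branch hγ).circleIntegral_one_div_sub_center_pow_smul one_pos n
    rw [circleIntegral] at h
    have e : ∀ θ : ℝ, deriv (circleMap 0 1) θ •
        ((1 / (circleMap 0 1 θ - 0) ^ (n + 1)) • branch γ (circleMap 0 1 θ)) =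
          I * (cexp ((-θ : ℝ) * I) ^ n * branch γ (cexp (-((-θ : ℝ) * I)))) := fun θ => by
      rw [deriv_circleMap, circleMap_zero]
      push_cast
      rw [neg_mul, neg_neg, Complex.exp_neg, smul_eq_mul, smul_eq_mul, sub_zero, one_mul,
        pow_succ, inv_pow]
      field_simp [Complex.exp_ne_zero]
    simp only [e] at h
    rw [intervalIntegral.integral_const_mul, smul_eq_mul] at h
    have hper : Function.Periodic
        (fun θ : ℝ => cexp (θ * I) ^ n * branch γ (cexp (-(θ * I)))) (2 * π) := fun θ => by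
      simp only
      rw [ofReal_add, add_mul, neg_add, Complex.exp_add, Complex.exp_add,
        Complex.exp_neg ((2 * π : ℝ) * I)]
      push_cast
      rw [exp_two_pi_mul_I]
      simp
    rw [intervalIntegral.integral_comp_neg
      (fun θ : ℝ => cexp (θ * I) ^ n * branch γ (cexp (-(θ * I))))] at h
    have h2 := hper.intervalIntegral_add_eq (-(2 * π)) 0
    rw [neg_add_cancel, zero_add] at h2
    rw [neg_zero, h2] at h
    refine mul_left_cancel₀ I_ne_zero ?_
    rw [h, branchCoeff]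
    ring
  simp only [mul_sum, integrand, sum_mul]
  rw [intervalIntegral.integral_finsetSum]
  · refine sum_congr rfl fun j _ => ?_
    simp only [mul_assoc (D j), intervalIntegral.integral_const_mul, ← hb]
    ring
  · intro j _
    exact ((continuous_const.mul (by fun_prop : Continuous fun θ : ℝ => cexp (θ * I) ^ (m + j))).mul
      (continuous_branch_circle hγ)).intervalIntegrable _ _

/-- No cut meets a good sector. -/
theorem differentiableOn_integrand {γ : ι → ℂ} {k : ℕ} (D : Fin k → ℂ) (m : ℕ) {α β : ℝ}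
    (hgood : ∀ i, ∀ θ ∈ Set.Icc α β, γ i ≠ 0 → γ i ≠ ‖γ i‖ * cexp (θ * I)) (s : Set ℝ) :
    DifferentiableOn ℂ (integrand γ D m) (s ×ℂ Set.Icc α β) := by
  intro ζ hζ
  refine DifferentiableAt.differentiableWithinAt ?_
  have hslit : ∀ i, 1 - γ i * cexp (-ζ) ∈ slitPlane := by
    intro i
    rw [mem_slitPlane_iff]
    by_contra hcon
    push Not at hcon
    obtain ⟨hre, him⟩ := hcon
    obtain ⟨w, hw⟩ : ∃ w, w = γ i * cexp (-ζ) := ⟨_, rfl⟩
    rw [← hw, sub_re, one_re] at hre
    rw [← hw, sub_im, one_im, zero_sub, neg_eq_zero] at him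
    have hwr : w = (w.re : ℂ) := Complex.ext (by simp) (by simp [him])
    have hγe : γ i = ((w.re * Real.exp ζ.re : ℝ) : ℂ) * cexp (ζ.im * I) := by
      rw [ofReal_mul, ofReal_exp, ← hwr, hw, mul_assoc, mul_assoc, ← Complex.exp_add,
        re_add_im, ← Complex.exp_add, neg_add_cancel, Complex.exp_zero, mul_one]
    have hpos : 0 < w.re * Real.exp ζ.re := mul_pos (by linarith) (Real.exp_pos _)
    have hnorm : ‖γ i‖ = w.re * Real.exp ζ.re := by
      rw [hγe, norm_mul, norm_exp_ofReal_mul_I, mul_one, Complex.norm_real,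
        Real.norm_of_nonneg hpos.le]
    refine hgood i ζ.im hζ.2 (fun h0 => ?_) (by rw [hnorm, ← hγe])
    rw [h0, norm_zero] at hnorm
    linarith
  exact DifferentiableAt.mul (by fun_prop)
    (DifferentiableAt.comp ζ (f := fun w => cexp (-w)) (differentiableAt_branch hslit)
      (by fun_prop))

/-- The sectors which meet a cut. -/
theorem exists_bad_sectors (γ : ι → ℂ) {M : ℕ} (hM : 1 ≤ M) :
    ∃ B : Finset ℕ, (∀ j ∈ B, j < 2 * M) ∧ B.card ≤ 2 * Fintype.card ι ∧
      ∀ j < 2 * M, j ∉ B → ∀ i, ∀ θ ∈ Set.Icc (sectorEdge M j) (sectorEdge M (j + 1)),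
        γ i ≠ 0 → γ i ≠ ‖γ i‖ * cexp (θ * I) := by
  classical
  have hM0 : (0 : ℝ) < M := by exact_mod_cast hM
  obtain ⟨u, hu⟩ : ∃ u : ι → ℤ, u = fun i => ⌊((γ i).arg * M / π + 1 / 2 : ℝ)⌋ := ⟨_, rfl⟩
  obtain ⟨J, hJ⟩ : ∃ J : ι × Bool → ℕ, J = fun p =>
      ((u p.1 - if p.2 then 1 else 0) % (2 * M : ℕ)).toNat := ⟨_, rfl⟩
  refine ⟨univ.image J, fun j hj => ?_, card_image_le.trans_eq ?_, ?_⟩
  · obtain ⟨p, -, rfl⟩ := mem_image.1 hj
    simp only [hJ]
    have := Int.emod_lt_of_pos (u p.1 - if p.2 then 1 else 0)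
      (show (0 : ℤ) < ((2 * M : ℕ) : ℤ) by exact_mod_cast (by omega : 0 < 2 * M))
    omega
  · rw [card_univ, Fintype.card_prod, Fintype.card_bool, mul_comm]
  intro j hj hnot i θ hθ h0 heq
  refine hnot (mem_image.2 ?_)
  obtain ⟨q, hq⟩ : ∃ q : ℤ, (θ : ℂ) * I = (γ i).arg * I + q * (2 * π * I) := by
    refine Complex.exp_eq_exp_iff_exists_int.1 ?_
    refine mul_left_cancel₀ (ofReal_ne_zero.2 (norm_ne_zero_iff.2 h0)) ?_
    rw [norm_mul_exp_arg_mul_I, ← heq]
  have hθe : θ = (γ i).arg + q * (2 * π) := by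
    have := congrArg Complex.im hq
    simpa using this
  obtain ⟨x, hx⟩ : ∃ x : ℝ, x = θ * M / π + 1 / 2 := ⟨_, rfl⟩
  have hxj : (j : ℝ) ≤ x ∧ x ≤ j + 1 := by
    obtain ⟨h1, h2⟩ := hθ
    simp only [sectorEdge] at h1 h2
    push_cast at h2
    rw [hx]
    constructor <;>
    · field_simp at h1 h2 ⊢
      linarith
  have hfl : ⌊x⌋ = u i + 2 * M * q := by
    rw [hu, hx, hθe, show ((γ i).arg + q * (2 * π)) * M / π + 1 / 2 =
      ((γ i).arg * M / π + 1 / 2) + ((2 * M * q : ℤ) : ℝ) by push_cast; field_simp; ring,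
      Int.floor_add_intCast]
  have hcases : ⌊x⌋ = (j : ℤ) ∨ ⌊x⌋ = (j : ℤ) + 1 := by
    have h1 : (j : ℤ) ≤ ⌊x⌋ := Int.le_floor.2 (by exact_mod_cast hxj.1)
    have h2 : ⌊x⌋ ≤ (j : ℤ) + 1 := by
      rw [← Int.floor_intCast (R := ℝ) ((j : ℤ) + 1)]
      exact Int.floor_le_floor (by push_cast; exact hxj.2)
    omega
  have key : ∀ e : ℤ, u i - e = (j : ℤ) - 2 * M * q →
      ((u i - e) % ((2 * M : ℕ) : ℤ)).toNat = j := fun e he => by
    rw [he, sub_eq_add_neg, ← mul_neg, Nat.cast_mul, Nat.cast_two, Int.add_mul_emod_self_left,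
      Int.emod_eq_of_lt (Int.natCast_nonneg j) (by exact_mod_cast hj), Int.toNat_natCast]
  rcases hcases with h | h
  · exact ⟨(i, false), mem_univ _, by rw [hJ]; simpa using key 0 (by linarith)⟩
  · exact ⟨(i, true), mem_univ _, by rw [hJ]; simpa using key 1 (by linarith)⟩

theorem thick_exp {M : ℕ} {B : Finset ℕ} {j : ℕ} (hj : j ∈ B) {x θ : ℝ} (hx : x ≤ 0)
    (hθ : θ ∈ Set.Icc (sectorEdge M j) (sectorEdge M (j + 1))) :
    Thick 0 M B (cexp (x + θ * I)) := by
  have hn : ‖cexp (x + θ * I)‖ = Real.exp x := by rw [norm_exp]; simp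
  refine ⟨hn ▸ Real.exp_le_one_iff.2 hx, Or.inr ⟨j, hj, θ - π * j / M, ?_, ?_⟩⟩
  · obtain ⟨h1, h2⟩ := hθ
    simp only [sectorEdge] at h1 h2
    push_cast at h2
    rw [abs_le]
    constructor
    · linarith
    · rw [mul_add, add_div, mul_one] at h2
      linarith [show π / M = π / (2 * M) + π / (2 * M) by ring]
  · rw [hn, dir, ofReal_exp, mul_assoc, ← Complex.exp_add, ← Complex.exp_add]
    congr 1
    push_cast
    ring

/-- **The coefficients as functionals on the sectors.** -/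
theorem exists_functional_bound {γ : ι → ℂ} (hγ : ∀ i, ‖γ i‖ < 1) {M : ℕ} (hM : 1 ≤ M) :
    ∃ B : Finset ℕ, (∀ j ∈ B, j < 2 * M) ∧ B.card ≤ 2 * Fintype.card ι ∧
      ∀ {k : ℕ} (D : Fin k → ℂ) (m : ℕ) (W : ℝ),
        (∀ z, Thick 0 M B z → ‖∑ j : Fin k, D j * z ^ (m + j)‖ ≤ W) →
          ‖∑ j : Fin k, D j * branchCoeff γ (m + j)‖ ≤
            ((M : ℝ) + 1) * 3 ^ Fintype.card ι * W := by
  classical
  obtain ⟨B, hBlt, hBcard, hgood⟩ := exists_bad_sectors γ hM
  refine ⟨B, hBlt, hBcard, fun {k} D m W hW => ?_⟩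
  have hM0 : (0 : ℝ) < M := by exact_mod_cast hM
  have hM1 : (1 : ℝ) ≤ M := by exact_mod_cast hM
  obtain ⟨ρ, hρ⟩ : ∃ ρ : ℝ, ρ = 1 - 1 / (16 * (M : ℝ)) := ⟨_, rfl⟩
  have hρh : 1 / 2 ≤ ρ := by
    have h : 1 / (16 * (M : ℝ)) ≤ 1 / 2 := one_div_le_one_div_of_le two_pos (by linarith)
    linarith
  have hρ0 : 0 < ρ := by linarith
  have hρ1 : ρ ≤ 1 := by
    have h : 0 ≤ 1 / (16 * (M : ℝ)) := by positivity
    linarith
  have hW0 : 0 ≤ W := (norm_nonneg _).trans (hW 0 ⟨by simp, Or.inl (by simpa [hρ] using hρ0.le)⟩)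
  obtain ⟨L, hL⟩ : ∃ L : ℝ, L = Real.log ρ := ⟨_, rfl⟩
  have hL0 : L ≤ 0 := hL ▸ Real.log_nonpos hρ0.le hρ1
  have hL1 : -1 ≤ L := by
    have h := Real.one_sub_inv_le_log_of_pos hρ0
    have h' : ρ⁻¹ ≤ 2 := by rw [inv_le_iff_one_le_mul₀ hρ0]; linarith
    linarith
  obtain ⟨H, hH⟩ : ∃ H, H = integrand γ D m := ⟨_, rfl⟩
  obtain ⟨K, hK⟩ : ∃ K : ℝ, K = W * 3 ^ Fintype.card ι := ⟨_, rfl⟩
  have hK0 : 0 ≤ K := hK ▸ by positivity
  have hbound : ∀ x θ : ℝ, L ≤ x → Thick 0 M B (cexp (x + θ * I)) →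
      ‖H (x + θ * I)‖ ≤ K := by
    intro x θ hx hT
    rw [hH, integrand, norm_mul, hK]
    refine mul_le_mul (hW _ hT) ?_ (norm_nonneg _) hW0
    rw [branch, norm_prod, ← card_univ, ← prod_const]
    refine prod_le_prod (fun i _ => norm_nonneg _) fun i _ => norm_csqrt_le ?_
    refine (norm_sub_le _ _).trans ?_
    rw [norm_one, norm_mul, norm_exp]
    have he : Real.exp (-((x : ℂ) + θ * I)).re ≤ 2 := by
      have h1 : (-((x : ℂ) + θ * I)).re = -x := by simp
      rw [h1]
      refine (Real.exp_le_exp.2 (neg_le_neg hx)).trans ?_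
      rw [hL, Real.exp_neg, Real.exp_log hρ0, inv_le_iff_one_le_mul₀ hρ0]
      linarith
    nlinarith [hγ i, norm_nonneg (γ i), Real.exp_pos (-((x : ℂ) + θ * I)).re]
  have hinner : ∀ θ : ℝ, Thick 0 M B (cexp (L + θ * I)) := fun θ => by
    have hn : ‖cexp (L + θ * I)‖ = ρ := by
      rw [norm_exp, hL]
      simp [Real.exp_log hρ0]
    exact ⟨hn ▸ hρ1, Or.inl (le_of_eq (hn.trans hρ))⟩
  obtain ⟨E, hE⟩ : ∃ E : ℕ → ℂ, E = fun j => ∫ x in L..0, H (x + sectorEdge M j * I) := ⟨_, rfl⟩
  obtain ⟨G, hG⟩ : ∃ G : ℕ → ℂ, G = fun j =>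
      (∫ θ in sectorEdge M j..sectorEdge M (j + 1), H (θ * I)) - I * (E j - E (j + 1)) := ⟨_, rfl⟩
  have hwidth : ∀ j, sectorEdge M (j + 1) - sectorEdge M j = π / M := fun j => by
    simp only [sectorEdge]
    push_cast
    ring
  have hmono : ∀ j, sectorEdge M j ≤ sectorEdge M (j + 1) := fun j => by
    have h := hwidth j
    have h' : 0 ≤ π / M := by positivity
    linarith
  have hG_le : ∀ j < 2 * M, ‖G j‖ ≤ K * (π / M + 2) := by
    intro j hj
    by_cases hjB : j ∈ B
    · have hEb : ∀ l, (l = j ∨ l = j + 1) → ‖E l‖ ≤ K := fun l hl => by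
        rw [hE]
        refine (intervalIntegral.norm_integral_le_of_norm_le_const fun x hx => ?_).trans ?_
          (b := K * |0 - L|)
        · rw [Set.uIoc_of_le hL0] at hx
          refine hbound x _ hx.1.le (thick_exp hjB hx.2 ?_)
          rcases hl with rfl | rfl
          exacts [Set.left_mem_Icc.2 (hmono l), Set.right_mem_Icc.2 (hmono j)]
        · rw [zero_sub, abs_neg, abs_of_nonpos hL0]
          nlinarith
      have hO : ‖∫ θ in sectorEdge M j..sectorEdge M (j + 1), H (θ * I)‖ ≤ K * (π / M) := by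
        refine (intervalIntegral.norm_integral_le_of_norm_le_const (C := K) fun θ hθ => ?_).trans ?_
        · rw [Set.uIoc_of_le (hmono j)] at hθ
          have h := hbound 0 θ hL0 (thick_exp hjB le_rfl ⟨hθ.1.le, hθ.2⟩)
          simpa using h
        · rw [hwidth, abs_of_nonneg (by positivity)]
      rw [hG]
      refine (norm_sub_le _ _).trans ?_
      rw [norm_mul, norm_I, one_mul]
      linarith [norm_sub_le (E j) (E (j + 1)), hEb j (Or.inl rfl), hEb (j + 1) (Or.inr rfl)]
    · have hrect := integral_boundary_rect_eq_zero_of_differentiableOn H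
        ((L : ℂ) + sectorEdge M j * I) (sectorEdge M (j + 1) * I) ?_
      swap
      · rw [hH]
        refine (differentiableOn_integrand D m (hgood j hj hjB) (Set.uIcc L 0)).mono ?_
        simp [Set.uIcc_of_le (hmono j)]
      simp only [add_re, mul_re, ofReal_re, I_re, mul_zero, ofReal_im, I_im, mul_one, sub_self,
        add_zero, add_im, mul_im, zero_add, ofReal_zero, smul_eq_mul] at hrect
      have hGe : G j = ∫ θ in sectorEdge M j..sectorEdge M (j + 1), H (L + θ * I) := by
        rw [hG, hE]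
        simp only
        linear_combination (norm := ring_nf) -I * hrect
        rw [I_sq]
        ring_nf
      rw [hGe]
      refine (intervalIntegral.norm_integral_le_of_norm_le_const (C := K) fun θ _ =>
        hbound L θ le_rfl (hinner θ)).trans ?_
      rw [hwidth, abs_of_nonneg (by positivity)]
      nlinarith
  have hcont : Continuous fun θ : ℝ => H (θ * I) := by
    rw [hH]
    exact Continuous.mul (by fun_prop) (continuous_branch_circle hγ)
  have hper : Function.Periodic (fun θ : ℝ => H (θ * I)) (2 * π) := fun θ => by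
    simp only [hH]
    rw [← integrand_periodic γ D m (θ * I)]
    push_cast
    ring_nf
  have hlast : sectorEdge M (2 * M) = sectorEdge M 0 + 2 * π := by
    simp only [sectorEdge]
    push_cast
    field_simp
    ring
  have htot : (2 * π : ℂ) * ∑ j : Fin k, D j * branchCoeff γ (m + j) =
      ∑ j ∈ range (2 * M), G j := by
    have hEper : E (2 * M) = E 0 := by
      rw [hE]
      simp only [hlast, hH]
      refine intervalIntegral.integral_congr fun x _ => ?_
      rw [← integrand_periodic γ D m ((x : ℂ) + sectorEdge M 0 * I)]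
      push_cast
      ring_nf
    rw [hG, sum_sub_distrib, ← mul_sum, sum_range_sub', hEper, sub_self, mul_zero, sub_zero,
      intervalIntegral.sum_integral_adjacent_intervals fun l _ => hcont.intervalIntegrable _ _,
      hlast, sum_mul_branchCoeff hγ, ← hH]
    have h := hper.intervalIntegral_add_eq 0 (sectorEdge M 0)
    rw [zero_add] at h
    exact h
  have hfin : 2 * π * ‖∑ j : Fin k, D j * branchCoeff γ (m + j)‖ ≤ 2 * M * (K * (π / M + 2)) := by
    have h := (norm_sum_le (range (2 * M)) G).trans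
      (sum_le_sum fun j hj => hG_le j (mem_range.1 hj))
    rw [← htot, norm_mul, sum_const, card_range, nsmul_eq_mul] at h
    push_cast at h
    simpa [abs_of_pos Real.pi_pos] using h
  rw [show 2 * (M : ℝ) * (K * (π / M + 2)) = K * (2 * π + 4 * M) by field_simp; ring, hK] at hfin
  have hK' : 0 ≤ W * 3 ^ Fintype.card ι := by positivity
  nlinarith [Real.pi_gt_three, mul_nonneg hK' hM0.le]

end FA.SchinzelZassenhaus
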