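import Mathlib

/-!
# The Fejér kernel on the closed disc

`1 + 2 re (fejPoly M w)` is the Fejér kernel of order `M`: it is non-negative on the closed unit
disc and at least `M / 8` at the points `ρ exp (i φ)` with `|φ| ≤ π / (2 M)`, `ρ` near one.
-/

set_option autoImplicit false

noncomputable section

namespace FA.SchinzelZassenhaus

open Complex Finset Metric
open scoped Real ComplexConjugate

/-- The analytic half of the Fejér kernel of order `M`. -/
def fejPoly (M : ℕ) (w : ℂ) : ℂ :=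
  ∑ l ∈ range M, (((M - 1 - l : ℕ) : ℂ) / M) * w ^ (l + 1)

theorem differentiable_fejPoly (M : ℕ) : Differentiable ℂ (fejPoly M) := by
  unfold fejPoly
  fun_prop

theorem fejPoly_weight_mem (M l : ℕ) :
    0 ≤ (((M - 1 - l : ℕ) : ℝ) / M) ∧ (((M - 1 - l : ℕ) : ℝ) / M) ≤ 1 := by
  refine ⟨by positivity, div_le_one_of_le₀ ?_ (Nat.cast_nonneg M)⟩
  exact_mod_cast (show M - 1 - l ≤ M by omega)

/-- The square of a geometric sum on the circle. -/
theorem normSq_geom_sum (M : ℕ) {w : ℂ} (hw : ‖w‖ = 1) :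
    ‖∑ j ∈ range M, w ^ j‖ ^ 2 =
      M + 2 * (∑ l ∈ range M, ((M - 1 - l : ℕ) : ℂ) * w ^ (l + 1)).re := by
  induction M with
  | zero => simp
  | succ M ih =>
    have hcw : conj w * w = 1 := by
      rw [mul_comm, Complex.mul_conj', hw]
      simp
    have hpow : ∀ l, l ≤ M → conj w ^ l * w ^ M = w ^ (M - l) := fun l hl => by
      conv_lhs => rw [← Nat.add_sub_cancel' hl, pow_add, ← mul_assoc, ← mul_pow, hcw, one_pow,
        one_mul]
    have hcross : conj (∑ j ∈ range M, w ^ j) * w ^ M = ∑ l ∈ range M, w ^ (l + 1) := by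
      rw [map_sum, sum_mul, ← sum_range_reflect (fun l => w ^ (l + 1))]
      refine sum_congr rfl fun j hj => ?_
      rw [mem_range] at hj
      rw [map_pow, hpow j hj.le]
      congr 1
      omega
    have hrec : ∑ l ∈ range (M + 1), ((M + 1 - 1 - l : ℕ) : ℂ) * w ^ (l + 1) =
        (∑ l ∈ range M, ((M - 1 - l : ℕ) : ℂ) * w ^ (l + 1)) + ∑ l ∈ range M, w ^ (l + 1) := by
      rw [sum_range_succ, show M + 1 - 1 - M = 0 by omega, Nat.cast_zero, zero_mul, add_zero,
        ← sum_add_distrib]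
      refine sum_congr rfl fun l hl => ?_
      rw [mem_range] at hl
      rw [show M + 1 - 1 - l = (M - 1 - l) + 1 by omega, Nat.cast_add, Nat.cast_one]
      ring
    have hsq : ∀ a b : ℂ, ‖a + b‖ ^ 2 = ‖a‖ ^ 2 + ‖b‖ ^ 2 + 2 * (conj a * b).re := fun a b => by
      simp only [Complex.sq_norm, Complex.normSq_add, mul_comm (conj a) b]
      rw [← Complex.conj_re (a * conj b), map_mul, Complex.conj_conj, mul_comm (conj a) b]
    rw [sum_range_succ, hsq, ih, norm_pow, hw, one_pow, one_pow, hcross, hrec, add_re]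
    push_cast
    ring

/-- The kernel on the circle. -/
theorem kernel_eq {M : ℕ} (hM : 1 ≤ M) {w : ℂ} (hw : ‖w‖ = 1) :
    1 + 2 * (fejPoly M w).re = ‖∑ j ∈ range M, w ^ j‖ ^ 2 / M := by
  have hM0 : (0 : ℝ) < M := by exact_mod_cast hM
  rw [normSq_geom_sum M hw, fejPoly]
  simp only [div_mul_eq_mul_div, ← sum_div, div_natCast_re]
  field_simp

/-- **Positivity on the disc.** -/
theorem kernel_nonneg {M : ℕ} (hM : 1 ≤ M) {w : ℂ} (hw : ‖w‖ ≤ 1) :
    0 ≤ 1 + 2 * (fejPoly M w).re := by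
  have h : ‖cexp (-fejPoly M w)‖ ≤ Real.exp (1 / 2) := by
    refine Complex.norm_le_of_forall_mem_frontier_norm_le (U := ball (0 : ℂ) 1) isBounded_ball
      ((differentiable_fejPoly M).neg.cexp.diffContOnCl) (fun z hz => ?_) ?_
    · rw [frontier_ball (0 : ℂ) one_ne_zero, mem_sphere_zero_iff_norm] at hz
      rw [norm_exp]
      refine Real.exp_le_exp.2 ?_
      have h0 : 0 ≤ 1 + 2 * (fejPoly M z).re := by
        rw [kernel_eq hM hz]
        positivity
      rw [Pi.neg_apply, neg_re]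
      linarith
    · rw [closure_ball (0 : ℂ) one_ne_zero]
      exact mem_closedBall_zero_iff.2 hw
  rw [norm_exp, Real.exp_le_exp, neg_re] at h
  linarith

/-- **A lower bound near `1`.** -/
theorem kernel_large {M : ℕ} (hM : 1 ≤ M) {φ ρ : ℝ} (hφ : |φ| ≤ π / (2 * M))
    (hρ : 1 - 1 / (16 * (M : ℝ)) ≤ ρ) (hρ1 : ρ ≤ 1) :
    (M : ℝ) / 8 ≤ 1 + 2 * (fejPoly M (ρ * cexp (φ * I))).re := by
  have hM0 : (0 : ℝ) < M := by exact_mod_cast hM
  have hM1 : (1 : ℝ) ≤ M := by exact_mod_cast hM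
  obtain ⟨v, hv⟩ : ∃ v : ℂ, v = cexp (φ * I) := ⟨_, rfl⟩
  have hv1 : ‖v‖ = 1 := hv ▸ norm_exp_ofReal_mul_I φ
  -- on the circle
  have hlow : (M : ℝ) / 2 ≤ ‖∑ j ∈ range M, v ^ j‖ := by
    obtain ⟨u, hu⟩ : ∃ u : ℂ, u = cexp ((-(M : ℝ) / 2 * φ : ℝ) * I) := ⟨_, rfl⟩
    have hu1 : ‖u‖ = 1 := hu ▸ norm_exp_ofReal_mul_I _
    calc (M : ℝ) / 2 = ∑ _j ∈ range M, (1 / 2 : ℝ) := by simp; ring
      _ ≤ ∑ j ∈ range M, (v ^ j * u).re := sum_le_sum fun j hj => by
        rw [mem_range] at hj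
        have harg : v ^ j * u = cexp (((((j : ℝ) - M / 2) * φ : ℝ)) * I) := by
          rw [hv, hu, ← exp_nat_mul, ← exp_add]
          congr 1
          push_cast
          ring
        rw [harg, exp_ofReal_mul_I_re]
        have hb : |((j : ℝ) - M / 2) * φ| ≤ π / 4 := by
          rw [abs_mul]
          calc |(j : ℝ) - M / 2| * |φ| ≤ (M / 2 : ℝ) * (π / (2 * M)) := by
                refine mul_le_mul ?_ hφ (abs_nonneg _) (by positivity)
                have : (j : ℝ) ≤ M := by exact_mod_cast hj.le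
                rw [abs_le]
                exact ⟨by linarith [(Nat.cast_nonneg j : (0 : ℝ) ≤ j)], by linarith⟩
            _ = π / 4 := by field_simp; ring
        have h1 := Real.one_sub_sq_div_two_le_cos (x := ((j : ℝ) - M / 2) * φ)
        have h2 : (((j : ℝ) - M / 2) * φ) ^ 2 ≤ 1 := by
          rw [← sq_abs]
          exact pow_le_one₀ (abs_nonneg _) (hb.trans (by linarith [Real.pi_le_four]))
        linarith
      _ = ((∑ j ∈ range M, v ^ j) * u).re := by rw [sum_mul, re_sum]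
      _ ≤ ‖(∑ j ∈ range M, v ^ j) * u‖ := re_le_norm _
      _ = _ := by rw [norm_mul, hu1, mul_one]
  have hcirc : (M : ℝ) / 4 ≤ 1 + 2 * (fejPoly M v).re := by
    rw [kernel_eq hM hv1, le_div_iff₀ hM0]
    calc (M : ℝ) / 4 * M = (M / 2) ^ 2 := by ring
      _ ≤ _ := pow_le_pow_left₀ (by positivity) hlow 2
  -- moving inwards
  have hρ0 : 0 ≤ ρ := by
    have : 1 / (16 * (M : ℝ)) ≤ 1 := by
      rw [div_le_one (by positivity)]
      linarith
    linarith
  have hdiff : ‖fejPoly M v - fejPoly M ((ρ : ℂ) * v)‖ ≤ (M : ℝ) / 16 := by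
    rw [fejPoly, fejPoly, ← sum_sub_distrib]
    refine (norm_sum_le_of_le _ (n := fun _ => (1 : ℝ) / 16) fun l hl => ?_).trans
      (le_of_eq (by simp; ring))
    rw [mem_range] at hl
    rw [show (((M - 1 - l : ℕ) : ℂ) / M) * v ^ (l + 1) -
        (((M - 1 - l : ℕ) : ℂ) / M) * ((ρ : ℂ) * v) ^ (l + 1) =
      (((((M - 1 - l : ℕ) : ℝ) / M) * (1 - ρ ^ (l + 1)) : ℝ) : ℂ) * v ^ (l + 1) by
        push_cast; ring, norm_mul, norm_pow, hv1, one_pow, mul_one, Complex.norm_real]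
    have hp : ρ ^ (l + 1) ≤ 1 := pow_le_one₀ hρ0 hρ1
    rw [Real.norm_of_nonneg (mul_nonneg (fejPoly_weight_mem M l).1 (by linarith))]
    refine (mul_le_of_le_one_left (by linarith) (fejPoly_weight_mem M l).2).trans ?_
    have hbern := one_add_mul_le_pow (show (-2 : ℝ) ≤ ρ - 1 by linarith) (l + 1)
    rw [show (1 : ℝ) + (ρ - 1) = ρ by ring] at hbern
    have hl' : ((l + 1 : ℕ) : ℝ) ≤ M := by exact_mod_cast hl
    have hkey : ((l + 1 : ℕ) : ℝ) * (1 - ρ) ≤ M * (1 / (16 * (M : ℝ))) :=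
      mul_le_mul hl' (by linarith) (by linarith) hM0.le
    rw [show (M : ℝ) * (1 / (16 * (M : ℝ))) = 1 / 16 by field_simp] at hkey
    linarith
  have := (re_le_norm _).trans hdiff
  rw [sub_re] at this
  rw [← hv]
  linarith

end FA.SchinzelZassenhaus
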