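import Fermat.Agent.DworkRationality.Hankel
import Mathlib.Analysis.Complex.Basic
import Mathlib.LinearAlgebra.Vandermonde
import Mathlib.LinearAlgebra.Matrix.Adjugate

/-!
# Hankel determinants of sequences of moments

A sequence dominated by the powers on a subset of the unit disc has Hankel determinants dominated
by the Vandermonde determinants on this subset.
-/

set_option autoImplicit false

noncomputable section

namespace FA.SchinzelZassenhaus

open Finset Matrix
open FA.DworkRationality (hankel)

theorem det_updateRow_eq_sum {k : ℕ} (A : Matrix (Fin k) (Fin k) ℂ) (a : Fin k)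
    (r : Fin k → ℂ) :
    (A.updateRow a r).det = ∑ j, (A.updateRow a (Pi.single j 1)).det * r j := by
  have h := congrFun (congrFun (mul_adjugate (A.updateRow a r)) a) a
  simp only [Matrix.smul_apply, one_apply_eq, smul_eq_mul, mul_one] at h
  rw [← h, mul_apply]
  refine sum_congr rfl fun j _ => ?_
  rw [adjugate_apply, updateRow_idem, updateRow_self, mul_comm]

theorem norm_det_hankel_le {b : ℕ → ℂ} {S : Set ℂ} {C V : ℝ}
    (hS : ∀ z ∈ S, ‖z‖ ≤ 1) (hne : S.Nonempty)
    (hb : ∀ {k : ℕ} (D : Fin k → ℂ) (m : ℕ) (W : ℝ),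
      (∀ z ∈ S, ‖∑ j : Fin k, D j * z ^ (m + j)‖ ≤ W) →
        ‖∑ j : Fin k, D j * b (m + j)‖ ≤ C * W)
    {k : ℕ} (hV : ∀ z : Fin k → ℂ, (∀ i, z i ∈ S) → ‖(vandermonde z).det‖ ≤ V) :
    ‖(hankel b k).det‖ ≤ C ^ k * V := by
  classical
  obtain ⟨z₀, hz₀⟩ := hne
  have key : ∀ s : Finset (Fin k), ∀ z : Fin k → ℂ, (∀ i, z i ∈ S) →
      ‖(Matrix.of fun i j : Fin k =>
        if i ∈ s then b ((i : ℕ) + j) else z i ^ ((i : ℕ) + j)).det‖ ≤ C ^ s.card * V := by
    intro s
    induction s using Finset.induction_on with
    | empty =>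
      intro z hz
      have e : (Matrix.of fun i j : Fin k =>
          if i ∈ (∅ : Finset (Fin k)) then b ((i : ℕ) + j) else z i ^ ((i : ℕ) + j)) =
          Matrix.of fun i j => z i ^ (i : ℕ) * vandermonde z i j := by
        ext i j
        simp [vandermonde_apply, pow_add]
      rw [e, det_mul_column, norm_mul, card_empty, pow_zero, one_mul, norm_prod]
      refine (mul_le_of_le_one_left (norm_nonneg _) ?_).trans (hV z hz)
      exact prod_le_one (fun i _ => norm_nonneg _) fun i _ => by
        rw [norm_pow]
        exact pow_le_one₀ (norm_nonneg _) (hS _ (hz i))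
    | insert a s ha ih =>
      intro z hz
      obtain ⟨A, hA⟩ : ∃ A, A = Matrix.of fun i j : Fin k =>
          if i ∈ s then b ((i : ℕ) + j) else z i ^ ((i : ℕ) + j) := ⟨_, rfl⟩
      have e : (Matrix.of fun i j : Fin k =>
          if i ∈ insert a s then b ((i : ℕ) + j) else z i ^ ((i : ℕ) + j)) =
          A.updateRow a fun j => b ((a : ℕ) + j) := by
        ext i j
        rcases eq_or_ne i a with rfl | hi
        · simp
        · simp [hA, hi]
      rw [e, det_updateRow_eq_sum, card_insert_of_notMem ha, pow_succ', mul_assoc]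
      refine hb _ _ _ fun w hw => ?_
      rw [← det_updateRow_eq_sum]
      have h := ih (Function.update z a w) fun i => by
        rcases eq_or_ne i a with rfl | hi
        · rwa [Function.update_self]
        · rw [Function.update_of_ne hi]; exact hz i
      refine le_trans (le_of_eq ?_) h
      congr 2
      ext i j
      rcases eq_or_ne i a with rfl | hi
      · simp [ha]
      · simp [hA, hi]
  simpa [hankel] using key univ (fun _ => z₀) fun _ => hz₀

end FA.SchinzelZassenhaus
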