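import Fermat.Agent.SchinzelZassenhaus.Contour
import Fermat.Agent.SchinzelZassenhaus.Hankel
import Fermat.Agent.SchinzelZassenhaus.Arithmetic

/-!
# The conjecture of Schinzel and Zassenhaus

If all conjugates of an algebraic integer of degree `n` have modulus below `exp (1 / (524288 n))`
then the integral square root of Graeffe's polynomials is rational, so that squaring permutes the
squares of the conjugates and one of them is a root of unity.
-/

set_option autoImplicit false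

noncomputable section

namespace FA.SchinzelZassenhaus

open Polynomial Finset
open FA.DworkRationality (hankel exists_recurrence)
open scoped Real

theorem det_hankel_geometric (b : ℕ → ℂ) (R : ℂ) (k : ℕ) :
    (hankel (fun n => R ^ n * b n) k).det =
      (∏ i : Fin k, R ^ (i : ℕ)) * ((∏ i : Fin k, R ^ (i : ℕ)) * (hankel b k).det) := by
  rw [← Matrix.det_mul_row, ← Matrix.det_mul_column]
  congr 1
  ext i j
  simp [hankel, pow_add]
  ring

/-- A formal square root of constant term one is the analytic one. -/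
theorem series_eq_branch {ι : Type*} [Fintype ι] {a : ι → ℂ} {R : ℂ} (hR : R ≠ 0)
    (hγ : ∀ i, ‖a i / R‖ < 1) {F : PowerSeries ℂ} (hF0 : PowerSeries.constantCoeff F = 1)
    (hF : F ^ 2 = ((∏ i, (1 - C (a i) * X) : ℂ[X]) : PowerSeries ℂ)) :
    F = PowerSeries.mk fun n => R ^ n * branchCoeff (fun i => a i / R) n := by
  obtain ⟨γ, hγdef⟩ : ∃ γ : ι → ℂ, γ = fun i => a i / R := ⟨_, rfl⟩
  obtain ⟨φ, hφ⟩ : ∃ φ : ℂ[X] →+* PowerSeries ℂ,
      φ = (PowerSeries.rescale R).comp coeToPowerSeries.ringHom := ⟨_, rfl⟩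
  obtain ⟨G, hG⟩ : ∃ G, G = PowerSeries.rescale R (PowerSeries.mk (branchCoeff γ)) := ⟨_, rfl⟩
  have hGmk : G = PowerSeries.mk fun n => R ^ n * branchCoeff γ n := by
    rw [hG, PowerSeries.rescale_mk]
  have hsq : PowerSeries.mk (branchCoeff γ) ^ 2 =
      ((∏ i, (1 - C (γ i) * X) : ℂ[X]) : PowerSeries ℂ) := by
    ext n
    rw [sq, PowerSeries.coeff_mul, coeff_coe, ← sum_branchCoeff_mul (hγdef ▸ hγ)]
    simp
  have hfac : ∀ i, φ (1 - C (γ i) * X) = coeToPowerSeries.ringHom (1 - C (a i) * X) := fun i => by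
    have hC : ∀ c : ℂ, PowerSeries.rescale R (PowerSeries.C c) = PowerSeries.C c := fun c => by
      ext n
      rcases n with - | n <;> simp [PowerSeries.coeff_rescale, PowerSeries.coeff_C]
    simp only [hφ, RingHom.comp_apply, coeToPowerSeries.ringHom_apply,
      Polynomial.coe_C, Polynomial.coe_X, map_sub, map_one,
      map_mul, PowerSeries.rescale_X, hC]
    rw [← mul_assoc, ← map_mul, hγdef]
    simp only [div_mul_cancel₀ _ hR]
  have hGsq : G ^ 2 = F ^ 2 := by
    rw [hG, ← map_pow, hsq, hF, ← coeToPowerSeries.ringHom_apply,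
      ← coeToPowerSeries.ringHom_apply, ← RingHom.comp_apply, ← hφ, map_prod, map_prod]
    exact prod_congr rfl fun i _ => hfac i
  rcases sq_eq_sq_iff_eq_or_eq_neg.1 hGsq with h | h
  · rw [← h, hGmk, hγdef]
  · have h' := congrArg PowerSeries.constantCoeff h
    rw [hGmk, map_neg, hF0, ← PowerSeries.coeff_zero_eq_constantCoeff_apply, PowerSeries.coeff_mk,
      pow_zero, one_mul, branchCoeff_zero] at h'
    norm_num at h'

/-- **The rationality step.** -/
theorem exists_square_cofactor {n : ℕ} (hn : 0 < n) {P : ℤ[X]} {z : Fin n → ℂ}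
    (hP : P.map (Int.castRingHom ℂ) = ∏ i, (X - C (z i)))
    (hz : ∀ i, ‖z i‖ < Real.exp (1 / (524288 * n))) :
    ∃ A B : ℂ[X], B ≠ 0 ∧
      ((∏ i, (1 - C (z i ^ 2) * X)) * ∏ i, (1 - C (z i ^ 4) * X)) * B ^ 2 = A ^ 2 := by
  classical
  obtain ⟨F, hF0, hF⟩ := exists_int_sqrt hP
  obtain ⟨s, hs⟩ : ∃ s : ℝ, s = 1 / (131072 * n) := ⟨_, rfl⟩
  have hn0 : (0 : ℝ) < n := by exact_mod_cast hn
  have hn1 : (1 : ℝ) ≤ n := by exact_mod_cast hn
  have hs0 : 0 < s := hs ▸ by positivity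
  obtain ⟨R, hR⟩ : ∃ R : ℝ, R = Real.exp s := ⟨_, rfl⟩
  have hR0 : 0 < R := hR ▸ Real.exp_pos _
  have hR1 : 1 ≤ R := hR ▸ Real.one_le_exp hs0.le
  obtain ⟨a, ha⟩ : ∃ a : Fin n ⊕ Fin n → ℂ,
      a = Sum.elim (fun i => z i ^ 2) fun i => z i ^ 4 := ⟨_, rfl⟩
  have hγ : ∀ i, ‖a i / (R : ℂ)‖ < 1 := by
    have hpow : ∀ (i : Fin n) (e : ℕ), e ≤ 4 → e ≠ 0 → ‖z i ^ e‖ < R := fun i e he he0 => by
      rw [norm_pow]
      refine (pow_lt_pow_left₀ (hz i) (norm_nonneg _) he0).trans_le ?_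
      rw [← Real.exp_nat_mul, hR, Real.exp_le_exp, hs]
      refine (mul_le_mul_of_nonneg_right (by exact_mod_cast he : (e : ℝ) ≤ 4)
        (by positivity)).trans (le_of_eq ?_)
      field_simp
      ring
    intro i
    rw [norm_div, Complex.norm_real, Real.norm_of_nonneg hR0.le, div_lt_one hR0, ha]
    rcases i with i | i
    exacts [hpow i 2 (by norm_num) two_ne_zero, hpow i 4 le_rfl (by norm_num)]
  obtain ⟨b, hb⟩ : ∃ b, b = branchCoeff (fun i => a i / (R : ℂ)) := ⟨_, rfl⟩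
  have hFb : ∀ m, ((PowerSeries.coeff m F : ℤ) : ℂ) = (R : ℂ) ^ m * b m := fun m => by
    have h := series_eq_branch (a := a) (Complex.ofReal_ne_zero.2 hR0.ne') hγ
      (F := PowerSeries.map (Int.castRingHom ℂ) F) (by
        rw [← PowerSeries.coeff_zero_eq_constantCoeff_apply, PowerSeries.coeff_map,
          PowerSeries.coeff_zero_eq_constantCoeff_apply, hF0, map_one]) (by
        rw [hF, ha, Fintype.prod_sum_type]
        rfl)
    have h' := congrArg (PowerSeries.coeff m) h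
    rwa [PowerSeries.coeff_map, PowerSeries.coeff_mk, eq_intCast, ← hb] at h'
  obtain ⟨M, hM⟩ : ∃ M : ℕ, M = 128 * n := ⟨_, rfl⟩
  obtain ⟨Bad, hBlt, hBcard, hfun⟩ := exists_functional_bound hγ (show 1 ≤ M by omega)
  rw [Fintype.card_sum, Fintype.card_fin] at hBcard hfun
  obtain ⟨K, hK⟩ : ∃ K : ℝ, K = ((M : ℝ) + 1) * 3 ^ (n + n) := ⟨_, rfl⟩
  have hK1 : 1 ≤ K := by
    rw [hK]
    exact one_le_mul_of_one_le_of_one_le (by linarith [Nat.cast_nonneg (α := ℝ) M])
      (one_le_pow₀ (by norm_num))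
  have hdet : ∀ k, 8 * M ≤ k → ‖(hankel (fun m => ((PowerSeries.coeff m F : ℤ) : ℂ)) k).det‖ ≤
      R ^ (k * k) * (K ^ k * Real.exp (3 * k * (1 + Real.log k) - (k : ℝ) ^ 2 / (512 * M))) := by
    intro k hk
    have hh := norm_det_hankel_le (S := {w | Thick 0 M Bad w}) (b := b) (C := K)
      (fun w hw => hw.1) ⟨0, by simp, Or.inl ?_⟩
      (fun D m W hW => by rw [hK, hb]; exact hfun D m W hW)
      (fun w hw => norm_det_vandermonde_thick_le (show 1 ≤ M by omega) hBlt (by omega) hk hw)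
    swap
    · have hM1 : (1 : ℝ) ≤ M := by exact_mod_cast (show 1 ≤ M by omega)
      rw [norm_zero, sub_nonneg, div_le_one (by linarith)]
      linarith
    simp only [hFb]
    rw [det_hankel_geometric, norm_mul, norm_mul, ← mul_assoc, norm_prod, ← prod_mul_distrib]
    refine mul_le_mul ?_ hh (norm_nonneg _) (by positivity)
    simp only [norm_pow, Complex.norm_real, Real.norm_of_nonneg hR0.le, ← pow_add,
      prod_pow_eq_pow_sum]
    refine pow_le_pow_right₀ hR1 ?_
    rw [Fin.sum_univ_eq_sum_range (fun i => i + i), sum_add_distrib, ← mul_two,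
      sum_range_id_mul_two]
    exact Nat.mul_le_mul_left k (Nat.sub_le k 1)
  -- the integral determinants vanish from some size on
  have hvan : ∀ k, ⌈((3 + Real.log K + 6) / s) ^ 2⌉₊ + 8 * M + 1 ≤ k →
      (hankel (fun m => ((PowerSeries.coeff m F : ℤ) : ℚ)) k).det = 0 := by
    intro k hk
    have h := hdet k (by omega)
    obtain ⟨D, hD⟩ : ∃ D, D = (Matrix.of fun i j : Fin k =>
      PowerSeries.coeff ((i : ℕ) + j) F).det := ⟨_, rfl⟩
    have h1 : (hankel (fun m => ((PowerSeries.coeff m F : ℤ) : ℚ)) k).det = (D : ℚ) := by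
      rw [hD, Int.cast_det]; rfl
    have h2 : (hankel (fun m => ((PowerSeries.coeff m F : ℤ) : ℂ)) k).det = (D : ℂ) := by
      rw [hD, Int.cast_det]; rfl
    rw [h2, Complex.norm_intCast] at h
    have hlog : 0 ≤ Real.log K := Real.log_nonneg hK1
    have hk1 : (1 : ℝ) ≤ k := by exact_mod_cast (show 1 ≤ k by omega)
    have hk0 : (0 : ℝ) < k := by linarith
    obtain ⟨q, hq⟩ : ∃ q, q = √(k : ℝ) := ⟨_, rfl⟩
    have hq0 : 0 < q := hq ▸ Real.sqrt_pos.2 hk0
    have hqq : q * q = k := hq ▸ Real.mul_self_sqrt hk0.le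
    have hlogk : Real.log k ≤ 2 * q := by
      rw [← hqq, Real.log_mul hq0.ne' hq0.ne']
      linarith [Real.log_le_sub_one_of_pos hq0]
    have hqbig : (3 + Real.log K + 6) / s < q := by
      rw [hq, Real.lt_sqrt (by positivity)]
      have hc := Nat.le_ceil (((3 + Real.log K + 6) / s) ^ 2)
      have : ((⌈((3 + Real.log K + 6) / s) ^ 2⌉₊ + 8 * M + 1 : ℕ) : ℝ) ≤ k := by exact_mod_cast hk
      push_cast at this
      linarith [(Nat.cast_nonneg M : (0 : ℝ) ≤ M)]
    rw [div_lt_iff₀ hs0] at hqbig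
    have hsmall : ((D : ℤ) : ℝ) ∈ Set.Ioo (-1 : ℝ) 1 := by
      rw [Set.mem_Ioo, ← abs_lt]
      refine h.trans_lt ?_
      have e1 : R ^ (k * k) = Real.exp ((k : ℝ) * k * s) := by
        rw [hR, ← Real.exp_nat_mul, Nat.cast_mul]
      have e2 : K ^ k = Real.exp ((k : ℝ) * Real.log K) := by
        rw [Real.exp_nat_mul, Real.exp_log (by linarith)]
      rw [e1, e2, ← Real.exp_add, ← Real.exp_add, Real.exp_lt_one_iff]
      have e3 : (k : ℝ) ^ 2 / (512 * M) = 2 * ((k : ℝ) * k * s) := by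
        rw [hM, hs]
        push_cast
        field_simp
        ring
      have hqk : 1 ≤ q := by nlinarith
      have h3 : 3 * (k : ℝ) * (1 + Real.log k) ≤ k * (3 + 6 * q) := by nlinarith
      have h4 : (k : ℝ) * ((3 + Real.log K + 6) * q) < k * ((q * s) * q) := by gcongr
      have h5 : (k : ℝ) * (q * s * q) = k * k * s := by rw [← hqq]; ring
      have h6 : (k : ℝ) * (3 + Real.log K) ≤ k * (3 + Real.log K) * q :=
        le_mul_of_one_le_right (mul_nonneg hk0.le (by linarith)) hqk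
      linarith
    have hD0 : D = 0 := by
      refine Int.abs_lt_one_iff.1 ?_
      have h' : |(D : ℝ)| < 1 := abs_lt.2 hsmall
      exact_mod_cast h'
    rw [h1, hD0, Int.cast_zero]
  obtain ⟨N, c, hcN, hrec⟩ := exists_recurrence (fun m => ((PowerSeries.coeff m F : ℤ) : ℚ))
    (by rw [PowerSeries.coeff_zero_eq_constantCoeff_apply, hF0]; simp) hvan
  obtain ⟨B, hB⟩ : ∃ B : ℂ[X], B = ∑ j ∈ range (N + 1), C ((c j : ℚ) : ℂ) * X ^ (N - j) := ⟨_, rfl⟩
  obtain ⟨Z, hZ⟩ : ∃ Z, Z = PowerSeries.map (Int.castRingHom ℂ) F := ⟨_, rfl⟩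
  have hBc : ∀ l ≤ N, B.coeff l = ((c (N - l) : ℚ) : ℂ) := fun l hl => by
    simp only [hB, finsetSum_coeff, coeff_C_mul_X_pow]
    rw [sum_eq_single (N - l)]
    · rw [if_pos (by omega)]
    · intro j hj hne
      simp only [mem_range] at hj
      rw [if_neg (by omega)]
    · intro h; simp only [mem_range] at h; omega
  have hBne : B ≠ 0 := fun h => by
    have := hBc 0 (Nat.zero_le _)
    rw [h, coeff_zero, Nat.sub_zero, hcN, Rat.cast_one] at this
    exact zero_ne_one this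
  have hprod : Z * (B : PowerSeries ℂ) =
      ((PowerSeries.trunc N (Z * (B : PowerSeries ℂ)) : ℂ[X]) : PowerSeries ℂ) := by
    ext m
    rw [coeff_coe, PowerSeries.coeff_trunc]
    split_ifs with hm
    · rfl
    obtain ⟨i, rfl⟩ := Nat.exists_eq_add_of_le (not_lt.1 hm)
    rw [PowerSeries.coeff_mul, Finset.Nat.sum_antidiagonal_eq_sum_range_succ_mk,
      Finset.range_eq_Ico, ← Finset.sum_Ico_consecutive _ (Nat.zero_le i) (by omega),
      Finset.sum_eq_zero fun j hj => ?_, zero_add, Finset.sum_Ico_eq_sum_range,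
      show (N + i).succ - i = N + 1 by omega]
    · refine Eq.trans (sum_congr rfl fun j hj => ?_)
        ((congrArg (fun x : ℚ => (x : ℂ)) (hrec i)).trans Rat.cast_zero |>.symm.trans
          (Rat.cast_sum _ _)).symm
      simp only [mem_range] at hj
      rw [hZ, PowerSeries.coeff_map, coeff_coe, hBc _ (by omega),
        show N - (N + i - (i + j)) = j by omega, eq_intCast, Rat.cast_mul, Rat.cast_intCast,
        mul_comm]
    · simp only [mem_Ico] at hj
      rw [coeff_coe, coeff_eq_zero_of_natDegree_lt, mul_zero]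
      rw [hB]
      exact (natDegree_sum_le_of_forall_le _ _
        fun j _ => (natDegree_C_mul_X_pow_le _ _).trans (Nat.sub_le N j)).trans_lt (by omega)
  refine ⟨PowerSeries.trunc N (Z * (B : PowerSeries ℂ)), B, hBne, Polynomial.coe_inj.1 ?_⟩
  rw [Polynomial.coe_mul, Polynomial.coe_pow, Polynomial.coe_pow, ← hF, ← hZ, ← mul_pow, ← hprod]

theorem rootMultiplicity_prod_one_sub {ι : Type*} (s : Finset ι) (a : ι → ℂ) (ha : ∀ i, a i ≠ 0)
    (u : ℂ) :
    (∏ i ∈ s, (1 - C (a i) * X)).rootMultiplicity u⁻¹ = #{i ∈ s | a i = u} := by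
  classical
  have hlin : ∀ i, (1 - C (a i) * X : ℂ[X]) = C (-a i) * (X - C (a i)⁻¹) := fun i => by
    rw [mul_sub, ← C_mul, neg_mul, mul_inv_cancel₀ (ha i), C_neg, C_neg, C_1]
    ring
  induction s using Finset.induction_on with
  | empty => simp [rootMultiplicity_eq_zero]
  | insert i t hi ih =>
    have hne : ∀ j, (1 - C (a j) * X : ℂ[X]) ≠ 0 := fun j => by
      rw [hlin]
      exact mul_ne_zero (C_ne_zero.2 (neg_ne_zero.2 (ha j))) (X_sub_C_ne_zero _)
    rw [prod_insert hi, rootMultiplicity_mul (mul_ne_zero (hne i) (prod_ne_zero_iff.2 fun j _ =>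
      hne j)), ih, hlin i, rootMultiplicity_mul (by rw [← hlin i]; exact hne i),
      rootMultiplicity_C, zero_add, rootMultiplicity_X_sub_C, filter_insert]
    by_cases h : a i = u
    · rw [if_pos (by rw [h]), if_pos h, card_insert_of_notMem (by simp [hi]), add_comm]
    · rw [if_neg (fun e => h (inv_injective e).symm), if_neg h, zero_add]

/-- Distinct squares: some root is a root of unity. -/
theorem exists_root_of_unity {n : ℕ} (hn : 0 < n) {z : Fin n → ℂ} (hz0 : ∀ i, z i ≠ 0)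
    (hinj : Function.Injective fun i => z i ^ 2) {A B : ℂ[X]} (hB : B ≠ 0)
    (h : ((∏ i, (1 - C (z i ^ 2) * X)) * ∏ i, (1 - C (z i ^ 4) * X)) * B ^ 2 = A ^ 2) :
    ∃ i, ∃ m, 0 < m ∧ z i ^ m = 1 := by
  classical
  have hne : ∀ w : ℂ, (1 - C w * X : ℂ[X]) ≠ 0 := fun w e => by
    have := congrArg (eval 0) e
    simp at this
  have hex : ∀ i, ∃ j, z j ^ 4 = z i ^ 2 := by
    intro i
    have hp : (∏ l, (1 - C (z l ^ 2) * X)) * ∏ l, (1 - C (z l ^ 4) * X) ≠ 0 :=
      mul_ne_zero (prod_ne_zero_iff.2 fun l _ => hne _) (prod_ne_zero_iff.2 fun l _ => hne _)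
    have hA : A ≠ 0 := fun e => by
      rw [e, zero_pow two_ne_zero] at h
      exact mul_ne_zero hp (pow_ne_zero 2 hB) h
    have h' := congrArg (rootMultiplicity (z i ^ 2)⁻¹) h
    rw [rootMultiplicity_mul (mul_ne_zero hp (pow_ne_zero 2 hB)), rootMultiplicity_mul hp,
      rootMultiplicity_prod_one_sub _ _ (fun l => pow_ne_zero 2 (hz0 l)),
      rootMultiplicity_prod_one_sub _ _ (fun l => pow_ne_zero 4 (hz0 l)), sq B, sq A,
      rootMultiplicity_mul (mul_ne_zero hB hB), rootMultiplicity_mul (mul_ne_zero hA hA),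
      show ({l ∈ univ | z l ^ 2 = z i ^ 2} : Finset (Fin n)) = {i} by
        ext l
        simp only [mem_filter, mem_univ, true_and, mem_singleton]
        exact ⟨fun e => hinj e, fun e => e ▸ rfl⟩, card_singleton] at h'
    obtain ⟨j, hj⟩ := card_pos.1 (show 0 < #{l ∈ univ | z l ^ 4 = z i ^ 2} by omega)
    exact ⟨j, (mem_filter.1 hj).2⟩
  choose g hg using hex
  have hiter : ∀ m i, (z (g^[m] i) ^ 2) ^ 2 ^ m = z i ^ 2 := by
    intro m
    induction m with
    | zero => simp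
    | succ m ih =>
      intro i
      rw [Function.iterate_succ_apply', pow_succ' 2 m, pow_mul, ← pow_mul _ 2 2, hg]
      exact ih i
  obtain ⟨a, b, hab, heq⟩ := Finite.exists_ne_map_eq_of_infinite fun m => g^[m] ⟨0, hn⟩
  wlog hlt : a < b generalizing a b
  · exact this b a hab.symm heq.symm (by omega)
  obtain ⟨p, rfl⟩ := Nat.exists_eq_add_of_le hlt.le
  have h1 := hiter p (g^[a] ⟨0, hn⟩)
  rw [← Function.iterate_add_apply, add_comm, ← heq] at h1
  obtain ⟨i, hi⟩ : ∃ i, i = g^[a] ⟨0, hn⟩ := ⟨_, rfl⟩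
  rw [← hi] at h1
  have hp2 : 2 ≤ 2 ^ p := le_self_pow₀ one_le_two (by omega)
  refine ⟨i, 2 * (2 ^ p - 1), by omega, ?_⟩
  refine mul_left_cancel₀ (pow_ne_zero 2 (hz0 i)) (Eq.trans ?_ (h1.trans (mul_one _).symm))
  rw [pow_mul, ← pow_succ', Nat.sub_add_cancel (by omega)]

end FA.SchinzelZassenhaus
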